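/-
IHARA track / [G1] (helper9): the framing algebra.

`IhgFrame A ι = A⟦Z_{v,i,j} : v ∈ ι, i j ∈ Fin 2⟧`, the universal framings `ihgBeta v = 1 + (Z_{v,i,j})`.
Pure commutative algebra:

* `ihg_conj_entries` : if `β P = N β` with `det β` a unit and `c` a scalar, then `N ≡ c` modulo an
  ideal `𝔍` (entrywise) iff `P ≡ c` modulo `𝔍`;
* `ihg_isUnit_det_beta` : `det (ihgBeta v)` is a unit;
* `ihg_frame_generators` : generators of `m_A` modulo an ideal `J_A` whose extension to the frame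
  ring lies in `𝔍`, together with the variables `Z`, generate `m_B` modulo `𝔍 + m_B²`.
-/
import Fermat.Agent.Lib.S53.PowerSeriesLocal

set_option autoImplicit false
set_option linter.unusedSectionVars false
set_option linter.style.haveILetI false

open IsLocalRing MvPowerSeries Fermat.Agent.S53Lib

namespace Fermat.Agent.Ihara

noncomputable section

/-! ## Matrices with entries in an ideal -/

section Entries

variable {B : Type*} [CommRing B]

/-- all entries of a `2 × 2` matrix lie in an ideal -/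
def IhgEntriesIn (𝔍 : Ideal B) (N : Matrix (Fin 2) (Fin 2) B) : Prop := ∀ i j, N i j ∈ 𝔍

lemma IhgEntriesIn.mul_left {𝔍 : Ideal B} {N : Matrix (Fin 2) (Fin 2) B} (h : IhgEntriesIn 𝔍 N)
    (P : Matrix (Fin 2) (Fin 2) B) : IhgEntriesIn 𝔍 (P * N) := by
  intro i j
  rw [Matrix.mul_apply]
  exact Ideal.sum_mem _ fun k _ => Ideal.mul_mem_left _ _ (h k j)

lemma IhgEntriesIn.mul_right {𝔍 : Ideal B} {N : Matrix (Fin 2) (Fin 2) B} (h : IhgEntriesIn 𝔍 N)
    (P : Matrix (Fin 2) (Fin 2) B) : IhgEntriesIn 𝔍 (N * P) := by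
  intro i j
  rw [Matrix.mul_apply]
  exact Ideal.sum_mem _ fun k _ => Ideal.mul_mem_right _ _ (h i k)

lemma IhgEntriesIn.of_unit_smul {𝔍 : Ideal B} {N : Matrix (Fin 2) (Fin 2) B} {u : B}
    (hu : IsUnit u) (h : IhgEntriesIn 𝔍 (u • N)) : IhgEntriesIn 𝔍 N := by
  intro i j
  have := h i j
  rw [Matrix.smul_apply, smul_eq_mul] at this
  exact (Ideal.unit_mul_mem_iff_mem 𝔍 hu).1 this

/-- **conjugation preserves congruence to a scalar** -/
theorem ihg_conj_entries {β P N : Matrix (Fin 2) (Fin 2) B} (hdet : IsUnit β.det)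
    (h : β * P = N * β) (c : B) (𝔍 : Ideal B) :
    IhgEntriesIn 𝔍 (N - c • (1 : Matrix (Fin 2) (Fin 2) B)) ↔
      IhgEntriesIn 𝔍 (P - c • (1 : Matrix (Fin 2) (Fin 2) B)) := by
  have key : β * (P - c • (1 : Matrix (Fin 2) (Fin 2) B)) =
      (N - c • (1 : Matrix (Fin 2) (Fin 2) B)) * β := by
    rw [mul_sub, sub_mul, h, Matrix.mul_smul, Matrix.smul_mul, mul_one, one_mul]
  constructor
  · intro hN
    have h1 : IhgEntriesIn 𝔍 (β.adjugate * ((N - c • (1 : Matrix (Fin 2) (Fin 2) B)) * β)) :=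
      (hN.mul_right β).mul_left _
    rw [← key, ← mul_assoc, Matrix.adjugate_mul, Matrix.smul_mul, one_mul] at h1
    exact h1.of_unit_smul hdet
  · intro hP
    have h1 : IhgEntriesIn 𝔍 (β * (P - c • (1 : Matrix (Fin 2) (Fin 2) B)) * β.adjugate) :=
      (hP.mul_left β).mul_right _
    rw [key, mul_assoc, Matrix.mul_adjugate, Matrix.mul_smul, mul_one] at h1
    exact h1.of_unit_smul hdet

end Entries

/-! ## The frame ring -/

section Frame

variable (A : Type*) [CommRing A] (ι : Type*)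

/-- the frame ring `A⟦Z_{v,i,j}⟧` -/
abbrev IhgFrame : Type _ := MvPowerSeries (ι × Fin 2 × Fin 2) A

/-- the universal framing `1 + (Z_{v,i,j})_{i,j}` at `v` -/
def ihgBeta (v : ι) : Matrix (Fin 2) (Fin 2) (IhgFrame A ι) :=
  1 + Matrix.of fun i j => (X (v, i, j) : IhgFrame A ι)

variable {A ι}

lemma constantCoeff_det_ihgBeta (v : ι) :
    constantCoeff (σ := ι × Fin 2 × Fin 2) (R := A) (ihgBeta A ι v).det = 1 := by
  rw [Matrix.det_fin_two]
  simp [ihgBeta, Matrix.add_apply]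

lemma ihg_isUnit_det_beta (v : ι) : IsUnit (ihgBeta A ι v).det := by
  rw [MvPowerSeries.isUnit_iff_constantCoeff, constantCoeff_det_ihgBeta]
  exact isUnit_one

end Frame

/-! ## Generators of the frame ring -/

section Gen

variable {A : Type*} [CommRing A] [IsLocalRing A] {ι : Type*} [Finite ι]

/-- **generators of the maximal ideal of the frame ring**: if `m_A ≤ J_A + I_A + (a) + m_A²` and
the extensions of `J_A` and `I_A` to the frame ring lie in `𝔍`, then
`m_B ≤ 𝔍 + (C a, Z) + m_B²`. -/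
theorem ihg_frame_generators {d : ℕ} (a : Fin d → A) (JA IA : Ideal A)
    (hgen : maximalIdeal A ≤ JA ⊔ IA ⊔ Ideal.span (Set.range a) ⊔ maximalIdeal A ^ 2)
    (𝔍 : Ideal (IhgFrame A ι))
    (hJ : JA.map (C (σ := ι × Fin 2 × Fin 2) (R := A)) ≤ 𝔍)
    (hI : IA.map (C (σ := ι × Fin 2 × Fin 2) (R := A)) ≤ 𝔍) :
    maximalIdeal (IhgFrame A ι) ≤ 𝔍 ⊔
      Ideal.span (Set.range (Sum.elim (fun i => C (σ := ι × Fin 2 × Fin 2) (R := A) (a i))
        (fun z : ι × Fin 2 × Fin 2 => (X z : IhgFrame A ι)))) ⊔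
      maximalIdeal (IhgFrame A ι) ^ 2 := by
  rw [maximalIdeal_eq_idealMX]
  set G : Ideal (IhgFrame A ι) := Ideal.span (Set.range
    (Sum.elim (fun i => C (σ := ι × Fin 2 × Fin 2) (R := A) (a i))
      (fun z : ι × Fin 2 × Fin 2 => (X z : IhgFrame A ι)))) with hG
  have hmC : (maximalIdeal A).map (C (σ := ι × Fin 2 × Fin 2) (R := A)) ≤
      idealMX (σ := ι × Fin 2 × Fin 2) (maximalIdeal A) := map_C_le_idealMX _
  unfold idealMX
  refine sup_le ?_ ?_
  · -- the image of `m_A`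
    refine (Ideal.map_mono hgen).trans ?_
    rw [Ideal.map_sup, Ideal.map_sup, Ideal.map_sup, Ideal.map_pow]
    refine sup_le (sup_le (sup_le ?_ ?_) ?_) ?_
    · exact hJ.trans (le_sup_of_le_left le_sup_left)
    · exact hI.trans (le_sup_of_le_left le_sup_left)
    · refine le_sup_of_le_left (le_sup_of_le_right ?_)
      rw [Ideal.map_span, hG]
      refine Ideal.span_mono ?_
      rintro _ ⟨_, ⟨i, rfl⟩, rfl⟩
      exact ⟨Sum.inl i, rfl⟩
    · exact le_sup_of_le_right (Ideal.pow_right_mono le_sup_left 2)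
  · refine le_sup_of_le_left (le_sup_of_le_right ?_)
    rw [hG]
    refine Ideal.span_mono ?_
    rintro _ ⟨z, rfl⟩
    exact ⟨Sum.inr z, rfl⟩

end Gen

end

end Fermat.Agent.Ihara
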