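/-
IHARA track / [G1] (helper9): framing, part 2.

* `ihg_C_sub_mem` : if the local matrix `M ∈ M₂(A)` is residually the scalar `ct` and the framed
  matrix `β_v⁻¹ M β_v` has entries in the image of `Λ` (written without inverses:
  `β_v * Φ^ι = M^C * β_v` with `Φ ∈ M₂(Λ)`), then `C (M i j - c') ∈ m_Λ · B` for every constant `c'`
  with `M i j - c' ∈ m_A`;
* `ihg_surj_of_generators` : the final surjection `Λ⟦x_1, …, x_g⟧ → A⟦Z⟧`.
-/
import Fermat.Agent.Lib.Ihara.G1.FrameAlg

set_option autoImplicit false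
set_option linter.unusedSectionVars false
set_option linter.style.haveILetI false

open IsLocalRing MvPowerSeries Fermat.Agent.S53Lib

namespace Fermat.Agent.Ihara

noncomputable section

section Mem

variable {𝒪 A Λ : Type} [CommRing 𝒪] [IsLocalRing 𝒪] [CommRing A] [IsLocalRing A] [Algebra 𝒪 A]
  [hlocA : IsLocalHom (algebraMap 𝒪 A)] {ι : Type} [Finite ι]
  [CommRing Λ] [IsLocalRing Λ] [Algebra 𝒪 Λ] [Algebra Λ (IhgFrame A ι)]
  [IsScalarTower 𝒪 Λ (IhgFrame A ι)]

/-- `C` maps the maximal ideal of `A` into the maximal ideal of the frame ring -/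
lemma ihg_C_mem_maximalIdeal {x : A} (hx : x ∈ maximalIdeal A) :
    (C (σ := ι × Fin 2 × Fin 2) (R := A) x) ∈ maximalIdeal (IhgFrame A ι) := by
  rw [maximalIdeal_eq_idealMX]
  exact map_C_le_idealMX _ (Ideal.mem_map_of_mem _ hx)

/-- the structure map `𝒪 → Λ` maps `m_𝒪` into `m_Λ` (because `𝒪 → A⟦Z⟧` does) -/
lemma ihg_algebraMap_mem_maximalIdeal (A : Type) [CommRing A] [IsLocalRing A] [Algebra 𝒪 A]
    [hlocA : IsLocalHom (algebraMap 𝒪 A)] (ι : Type) [Finite ι]
    [Algebra Λ (IhgFrame A ι)] [IsScalarTower 𝒪 Λ (IhgFrame A ι)]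
    {y : 𝒪} (hy : y ∈ maximalIdeal 𝒪) :
    algebraMap 𝒪 Λ y ∈ maximalIdeal Λ := by
  by_contra hnot
  have hu : IsUnit (algebraMap 𝒪 Λ y) := by
    by_contra hnu
    exact hnot hnu
  have hu' : IsUnit (algebraMap Λ (IhgFrame A ι) (algebraMap 𝒪 Λ y)) := hu.map _
  rw [← IsScalarTower.algebraMap_apply, MvPowerSeries.algebraMap_apply] at hu'
  have h1 : algebraMap 𝒪 A y ∈ maximalIdeal A := by
    by_contra hnot'
    have hu2 : IsUnit (algebraMap 𝒪 A y) := by
      by_contra hnu
      exact hnot' hnu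
    exact hy (hlocA.map_nonunit y hu2)
  exact ihg_C_mem_maximalIdeal (ι := ι) h1 hu'

/-- **the entries of a framed local matrix**: see the header -/
theorem ihg_C_sub_mem (v : ι) (M : Matrix (Fin 2) (Fin 2) A) (ct : 𝒪)
    (hM : IhgEntriesIn (maximalIdeal A) (M - algebraMap 𝒪 A ct • (1 : Matrix (Fin 2) (Fin 2) A)))
    (Φ : Matrix (Fin 2) (Fin 2) Λ)
    (hΦ : ihgBeta A ι v * Φ.map (algebraMap Λ (IhgFrame A ι)) =
      M.map (C (σ := ι × Fin 2 × Fin 2) (R := A)) * ihgBeta A ι v)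
    (i j : Fin 2) (c' : 𝒪) (hc' : M i j - algebraMap 𝒪 A c' ∈ maximalIdeal A) :
    C (σ := ι × Fin 2 × Fin 2) (R := A) (M i j - algebraMap 𝒪 A c') ∈
      (maximalIdeal Λ).map (algebraMap Λ (IhgFrame A ι)) := by
  set B := IhgFrame A ι with hB
  set N : Matrix (Fin 2) (Fin 2) B := M.map (C (σ := ι × Fin 2 × Fin 2) (R := A)) with hN
  set P : Matrix (Fin 2) (Fin 2) B := Φ.map (algebraMap Λ B) with hP
  set c : B := algebraMap 𝒪 B ct with hc
  have hcC : c = C (σ := ι × Fin 2 × Fin 2) (R := A) (algebraMap 𝒪 A ct) := by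
    rw [hc, MvPowerSeries.algebraMap_apply]
  have hcΛ : c = algebraMap Λ B (algebraMap 𝒪 Λ ct) := by
    rw [hc, ← IsScalarTower.algebraMap_apply]
  have hdet := ihg_isUnit_det_beta (A := A) (ι := ι) v
  -- entries of `N - c`
  have hentry : ∀ i j, (N - c • (1 : Matrix (Fin 2) (Fin 2) B)) i j =
      C (σ := ι × Fin 2 × Fin 2) (R := A)
        ((M - algebraMap 𝒪 A ct • (1 : Matrix (Fin 2) (Fin 2) A)) i j) := by
    intro i j
    rw [Matrix.sub_apply, Matrix.sub_apply, Matrix.smul_apply, Matrix.smul_apply, hN,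
      Matrix.map_apply, map_sub, smul_eq_mul, smul_eq_mul, map_mul, hcC]
    congr 2
    by_cases hij : i = j
    · rw [hij, Matrix.one_apply_eq, Matrix.one_apply_eq, map_one]
    · rw [Matrix.one_apply_ne hij, Matrix.one_apply_ne hij, map_zero]
  -- step a
  have ha : IhgEntriesIn (maximalIdeal B) (N - c • (1 : Matrix (Fin 2) (Fin 2) B)) := by
    intro i j
    rw [hentry]
    exact ihg_C_mem_maximalIdeal (hM i j)
  -- step b
  have hb : IhgEntriesIn (maximalIdeal B) (P - c • (1 : Matrix (Fin 2) (Fin 2) B)) :=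
    (ihg_conj_entries hdet hΦ c _).1 ha
  -- entries of `P - c`
  have hentryP : ∀ i j, (P - c • (1 : Matrix (Fin 2) (Fin 2) B)) i j =
      algebraMap Λ B ((Φ - algebraMap 𝒪 Λ ct • (1 : Matrix (Fin 2) (Fin 2) Λ)) i j) := by
    intro i j
    rw [Matrix.sub_apply, Matrix.sub_apply, Matrix.smul_apply, Matrix.smul_apply, hP,
      Matrix.map_apply, map_sub, smul_eq_mul, smul_eq_mul, map_mul, hcΛ]
    congr 2
    by_cases hij : i = j
    · rw [hij, Matrix.one_apply_eq, Matrix.one_apply_eq, map_one]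
    · rw [Matrix.one_apply_ne hij, Matrix.one_apply_ne hij, map_zero]
  -- step c, d
  have hd : IhgEntriesIn ((maximalIdeal Λ).map (algebraMap Λ B))
      (P - c • (1 : Matrix (Fin 2) (Fin 2) B)) := by
    intro i j
    rw [hentryP]
    refine Ideal.mem_map_of_mem _ ?_
    by_contra hnot
    have hu : IsUnit ((Φ - algebraMap 𝒪 Λ ct • (1 : Matrix (Fin 2) (Fin 2) Λ)) i j) := by
      by_contra hnu
      exact hnot hnu
    have hu' := hu.map (algebraMap Λ B)
    rw [← hentryP] at hu'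
    exact hb i j hu'
  -- step e
  have he : IhgEntriesIn ((maximalIdeal Λ).map (algebraMap Λ B))
      (N - c • (1 : Matrix (Fin 2) (Fin 2) B)) := (ihg_conj_entries hdet hΦ c _).2 hd
  -- step f
  have h1 := he i j
  rw [hentry] at h1
  have hsplit : M i j - algebraMap 𝒪 A c' =
      (M - algebraMap 𝒪 A ct • (1 : Matrix (Fin 2) (Fin 2) A)) i j +
        algebraMap 𝒪 A (ct * (if i = j then 1 else 0) - c') := by
    rw [Matrix.sub_apply, Matrix.smul_apply, smul_eq_mul, map_sub, map_mul]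
    by_cases hij : i = j
    · rw [hij, Matrix.one_apply_eq, if_pos rfl, map_one]; ring
    · rw [Matrix.one_apply_ne hij, if_neg hij, map_zero]; ring
  rw [hsplit, map_add]
  refine Ideal.add_mem _ h1 ?_
  -- the constant is in `m_𝒪`
  have hy : ct * (if i = j then 1 else 0) - c' ∈ maximalIdeal 𝒪 := by
    by_contra hnot
    have hu : IsUnit (ct * (if i = j then 1 else 0) - c') := by
      by_contra hnu
      exact hnot hnu
    have hu' : IsUnit (algebraMap 𝒪 A (ct * (if i = j then 1 else 0) - c')) := hu.map _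
    have h2 : algebraMap 𝒪 A (ct * (if i = j then 1 else 0) - c') ∈ maximalIdeal A := by
      have : algebraMap 𝒪 A (ct * (if i = j then 1 else 0) - c') =
          (M i j - algebraMap 𝒪 A c') -
            (M - algebraMap 𝒪 A ct • (1 : Matrix (Fin 2) (Fin 2) A)) i j := by
        rw [hsplit]; ring
      rw [this]
      exact Ideal.sub_mem _ hc' (hM i j)
    exact h2 hu'
  have h3 : C (σ := ι × Fin 2 × Fin 2) (R := A)
      (algebraMap 𝒪 A (ct * (if i = j then 1 else 0) - c')) =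
      algebraMap Λ B (algebraMap 𝒪 Λ (ct * (if i = j then 1 else 0) - c')) := by
    rw [← IsScalarTower.algebraMap_apply, MvPowerSeries.algebraMap_apply]
  rw [h3]
  exact Ideal.mem_map_of_mem _ (ihg_algebraMap_mem_maximalIdeal A ι hy)

end Mem

section Surj

variable {A Λ : Type} [CommRing A] [IsLocalRing A] {ι : Type} [Fintype ι]
  [CommRing Λ] [IsLocalRing Λ] [Algebra Λ (IhgFrame A ι)]

/-- **the final surjection**: if `m_B ≤ m_Λ B + (C a, Z) + m_B²` (`a : Fin d → m_A`), then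
`Λ⟦x_1, …, x_g⟧ → B = A⟦Z⟧` is surjective for `g = d + 4 |ι|`. -/
theorem ihg_surj_of_generators [IsNoetherianRing A] [IsAdicComplete (maximalIdeal A) A]
    [IsAdicComplete (maximalIdeal Λ) Λ] [IsLocalHom (algebraMap Λ (IhgFrame A ι))]
    (hres : Function.Surjective (residue (IhgFrame A ι) ∘ algebraMap Λ (IhgFrame A ι)))
    {d : ℕ} (a : Fin d → A) (ha : ∀ i, a i ∈ maximalIdeal A)
    (hgen : maximalIdeal (IhgFrame A ι) ≤ (maximalIdeal Λ).map (algebraMap Λ (IhgFrame A ι)) ⊔
      Ideal.span (Set.range (Sum.elim (fun i => C (σ := ι × Fin 2 × Fin 2) (R := A) (a i))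
        (fun z : ι × Fin 2 × Fin 2 => (X z : IhgFrame A ι)))) ⊔
      maximalIdeal (IhgFrame A ι) ^ 2)
    (g : ℕ) (hg : g = d + 4 * Fintype.card ι) :
    ∃ γ : MvPowerSeries (Fin g) Λ →ₐ[Λ] IhgFrame A ι, Function.Surjective γ := by
  classical
  haveI : IsAdicComplete (maximalIdeal (IhgFrame A ι)) (IhgFrame A ι) :=
    isAdicComplete_maximalIdeal
  have hcard : Fintype.card (Fin g) = Fintype.card (Fin d ⊕ ι × Fin 2 × Fin 2) := by
    rw [Fintype.card_fin, Fintype.card_sum, Fintype.card_prod, Fintype.card_prod,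
      Fintype.card_fin, Fintype.card_fin, hg]
    ring
  let e : Fin g ≃ Fin d ⊕ ι × Fin 2 × Fin 2 := Fintype.equivOfCardEq hcard
  set a' : Fin d ⊕ ι × Fin 2 × Fin 2 → IhgFrame A ι :=
    Sum.elim (fun i => C (σ := ι × Fin 2 × Fin 2) (R := A) (a i))
      (fun z : ι × Fin 2 × Fin 2 => (X z : IhgFrame A ι)) with ha'
  have ha'm : ∀ z, a' z ∈ maximalIdeal (IhgFrame A ι) := by
    rintro (i | z)
    · exact ihg_C_mem_maximalIdeal (ha i)
    · show (X z : IhgFrame A ι) ∈ maximalIdeal (IhgFrame A ι)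
      rw [maximalIdeal_eq_idealMX]
      exact span_X_le_idealMX _ (Ideal.subset_span ⟨z, rfl⟩)
  have hfg : (maximalIdeal (IhgFrame A ι)).FG := by
    rw [maximalIdeal_eq_idealMX]
    unfold idealMX
    refine Submodule.FG.sup ?_ ?_
    · exact Ideal.FG.map (IsNoetherian.noetherian _) _
    · exact Submodule.fg_span (Set.finite_range _)
  refine ⟨evalAdic (maximalIdeal (IhgFrame A ι)) (a' ∘ e) (fun i => ha'm _),
    evalAdic_surjective (a' ∘ e) (fun i => ha'm _) hfg hres ?_⟩
  have hrange : Set.range (a' ∘ e) = Set.range a' := by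
    rw [Set.range_comp, Equiv.range_eq_univ, Set.image_univ]
  rw [hrange]
  exact hgen

end Surj

end

end Fermat.Agent.Ihara
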