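/-
IHARA track / [G1] (helper9): few points in `k[ε]` killing an ideal `J` ⟹ few generators modulo `J`
(the relative version of `exists_generators_of_card_points_le`, obtained by applying it to `A ⧸ J`).
-/
import Fermat.Agent.Lib.TW.TangentCount

set_option autoImplicit false
set_option linter.unusedSectionVars false
set_option linter.style.haveILetI false

open IsLocalRing Fermat.Agent.S53Lib Fermat.Agent.TW

namespace Fermat.Agent.Ihara

noncomputable section

attribute [local instance] dualNumberAlgebra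

variable {𝒪 : Type} [CommRing 𝒪] [IsLocalRing 𝒪]
variable {A : Type} [CommRing A] [IsLocalRing A] [Algebra 𝒪 A]

/-- **few points killing `J` ⟹ few generators modulo `J`** -/
theorem ihg_exists_generators_rel [hloc : IsLocalHom (algebraMap 𝒪 A)]
    (hsurj : Function.Surjective (residue A ∘ algebraMap 𝒪 A)) [Finite (ResidueField 𝒪)]
    (hfg : (maximalIdeal A).FG) (J : Ideal A) (hJ : J ≤ maximalIdeal A) (d : ℕ)
    (hcard : ∀ s : Finset (A →ₐ[𝒪] DualNumber (ResidueField 𝒪)),
      (∀ f ∈ s, ∀ x ∈ J, f x = 0) → s.card ≤ Nat.card (ResidueField 𝒪) ^ d) :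
    ∃ a : Fin d → A, (∀ i, a i ∈ maximalIdeal A) ∧
      maximalIdeal A ≤ J ⊔ (maximalIdeal 𝒪).map (algebraMap 𝒪 A) ⊔ Ideal.span (Set.range a)
        ⊔ maximalIdeal A ^ 2 := by
  classical
  have hJtop : J ≠ ⊤ := fun h => (maximalIdeal.isMaximal A).ne_top (top_le_iff.1 (h ▸ hJ))
  haveI : Nontrivial (A ⧸ J) := Ideal.Quotient.nontrivial_iff.2 hJtop
  haveI : IsLocalRing (A ⧸ J) :=
    IsLocalRing.of_surjective' (Ideal.Quotient.mk J) Ideal.Quotient.mk_surjective
  let π : A →ₐ[𝒪] A ⧸ J := Ideal.Quotient.mkₐ 𝒪 J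
  have hπ : Function.Surjective π := Ideal.Quotient.mkₐ_surjective 𝒪 J
  have hlocR : IsLocalHom (algebraMap 𝒪 (A ⧸ J)) := isLocalHom_algebraMap_of_surjective π hπ
  have hsurjR : Function.Surjective (residue (A ⧸ J) ∘ algebraMap 𝒪 (A ⧸ J)) :=
    residue_comp_algebraMap_surjective_of_surjective π hπ hsurj
  have hmapmax : (maximalIdeal A).map (π : A →+* A ⧸ J) = maximalIdeal (A ⧸ J) :=
    map_maximalIdeal_of_surjective (π : A →+* A ⧸ J) hπ
  have hfgR : (maximalIdeal (A ⧸ J)).FG := by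
    rw [← hmapmax]
    exact Ideal.FG.map hfg _
  have hcardR : ∀ s : Finset ((A ⧸ J) →ₐ[𝒪] DualNumber (ResidueField 𝒪)),
      s.card ≤ Nat.card (ResidueField 𝒪) ^ d := by
    intro s
    have hinj : Function.Injective
        (fun f : (A ⧸ J) →ₐ[𝒪] DualNumber (ResidueField 𝒪) => f.comp π) := by
      intro f f' h
      refine AlgHom.ext fun x => ?_
      obtain ⟨y, rfl⟩ := hπ x
      exact AlgHom.congr_fun h y
    rw [← Finset.card_image_of_injective s hinj]
    refine hcard _ ?_
    intro f hf x hx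
    obtain ⟨g, -, rfl⟩ := Finset.mem_image.1 hf
    show g (π x) = 0
    have : π x = 0 := Ideal.Quotient.eq_zero_iff_mem.2 hx
    rw [this, map_zero]
  obtain ⟨abar, habar, hgen⟩ := exists_generators_of_card_points_le hlocR hsurjR hfgR d hcardR
  choose a ha using fun i => hπ (abar i)
  have ham : ∀ i, a i ∈ maximalIdeal A := by
    intro i
    by_contra hnot
    have hu : IsUnit (a i) := by
      by_contra hnu
      exact hnot hnu
    have : IsUnit (π (a i)) := hu.map π
    rw [ha i] at this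
    exact habar i this
  refine ⟨a, ham, ?_⟩
  intro y hy
  have hy' : π y ∈ maximalIdeal (A ⧸ J) := by
    rw [← hmapmax]
    exact Ideal.mem_map_of_mem _ hy
  have h1 := hgen hy'
  -- the right hand side is the image of an ideal of `A`
  set I : Ideal A := (maximalIdeal 𝒪).map (algebraMap 𝒪 A) ⊔ Ideal.span (Set.range a)
    ⊔ maximalIdeal A ^ 2 with hI
  have hImap : I.map (π : A →+* A ⧸ J) = (maximalIdeal 𝒪).map (algebraMap 𝒪 (A ⧸ J))
      ⊔ Ideal.span (Set.range abar) ⊔ maximalIdeal (A ⧸ J) ^ 2 := by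
    have h_a : ((maximalIdeal 𝒪).map (algebraMap 𝒪 A)).map (π : A →+* A ⧸ J) =
        (maximalIdeal 𝒪).map (algebraMap 𝒪 (A ⧸ J)) := by
      rw [Ideal.map_map]
      congr 1
    have h_b : (Ideal.span (Set.range a)).map (π : A →+* A ⧸ J) =
        Ideal.span (Set.range abar) := by
      rw [Ideal.map_span]
      congr 1
      ext z
      constructor
      · rintro ⟨_, ⟨i, rfl⟩, rfl⟩
        exact ⟨i, (ha i).symm⟩
      · rintro ⟨i, rfl⟩
        exact ⟨a i, ⟨i, rfl⟩, ha i⟩
    rw [hI, Ideal.map_sup, Ideal.map_sup, Ideal.map_pow, hmapmax, h_a, h_b]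
  rw [← hImap] at h1
  obtain ⟨x, hx, hxy⟩ := (Ideal.mem_map_iff_of_surjective (π : A →+* A ⧸ J) hπ).1 h1
  have hJmem : y - x ∈ J := by
    rw [← Ideal.Quotient.eq_zero_iff_mem]
    show π (y - x) = 0
    rw [map_sub]
    have : π x = π y := hxy
    rw [this, sub_self]
  have : y = (y - x) + x := by ring
  rw [this]
  have h2 : J ⊔ (maximalIdeal 𝒪).map (algebraMap 𝒪 A) ⊔ Ideal.span (Set.range a)
      ⊔ maximalIdeal A ^ 2 = J ⊔ I := by
    rw [hI, sup_assoc, sup_assoc, sup_assoc]
  rw [h2]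
  exact Submodule.add_mem_sup hJmem hx

end

end Fermat.Agent.Ihara
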