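/-
IHARA track / [G1] (helper9): the dimension count with the local condition `0` at a set `Tc` of
auxiliary primes (the "C-primes"): Wiles' inequality with trivial dual Selmer group gives
`dim Sel_L + Σ_{v ∈ Tc} h⁰(G_v, ad⁰) ≤ #Q` (the analogue of `finrank_selmerGroup_le`).
-/
import Fermat.Agent.Lib.TW.Wiring

set_option autoImplicit false
set_option linter.unusedSectionVars false
set_option linter.style.haveILetI false

open Fermat.Agent.S53Lib Fermat.Agent.TW IsLocalRing groupCohomology ExtCitation CategoryTheory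
  GaloisRep

namespace Fermat.Agent.Ihara

noncomputable section

/-- the counting lemma: `tw_sum_bound` with a set `Tc` of primes where the local condition is `0` -/
lemma ihg_sum_bound (S' : Finset Nat.Primes) (pp : Nat.Primes) (Q : Finset ℕ) (r : ℕ)
    (hQ : Q.card ≤ r) (Tc : Finset Nat.Primes) (hTc : Tc ⊆ S') (f h : Nat.Primes → ℕ)
    (hb : ∀ q ∈ S', q ∉ Tc → f q ≤ h q + (if q = pp ∨ (q : ℕ) ∈ Q then 1 else 0))
    (hf0 : ∀ q ∈ Tc, f q = 0) :
    ∑ q : ↥S', f q.1 + ∑ q ∈ Tc, h q ≤ ∑ q : ↥S', h q.1 + 1 + r := by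
  classical
  set f' : Nat.Primes → ℕ := fun q => if q ∈ Tc then h q else f q with hf'
  have h1 := tw_sum_bound S' pp Q r hQ f' h (by
    intro q hq
    by_cases hqT : q ∈ Tc
    · simp only [hf', hqT, if_true]
      exact Nat.le_add_right _ _
    · simp only [hf', hqT, if_false]
      exact hb q hq hqT)
  have h2 : ∑ q : ↥S', f' q.1 = ∑ q : ↥S', f q.1 + ∑ q ∈ Tc, h q := by
    rw [Finset.sum_coe_sort S' f', Finset.sum_coe_sort S' f]
    have h3 : ∑ q ∈ S', f' q = ∑ q ∈ S', (f q + (if q ∈ Tc then h q else 0)) := by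
      refine Finset.sum_congr rfl fun q _ => ?_
      by_cases hqT : q ∈ Tc
      · simp only [hf', hqT, if_true, hf0 q hqT, zero_add]
      · simp only [hf', hqT, if_false, add_zero]
    rw [h3, Finset.sum_add_distrib, ← Finset.sum_filter]
    congr 2
    ext q
    simp only [Finset.mem_filter]
    exact ⟨fun h => h.2, fun h => ⟨hTc h, h⟩⟩
  rw [← h2]
  exact h1

section Dim

variable {k : Type} [Field k]
variable (p : ℕ) [Fact p.Prime] [Algebra (ZMod p) k] (ρbar : ResidualGaloisRep k)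

/-- **the dimension count with the condition `0` at `Tc`** -/
theorem ihg_finrank_selmerGroup_le
    (tp : LocalPairings (ad0Rep ρbar) (tateDual p (ad0Rep ρbar)))
    (hGW : ContractGW p (ad0Rep ρbar) (tateDual p (ad0Rep ρbar)) tp)
    (hH0 : ContractH0 ρbar) (hArch : ContractArch ρbar)
    (Smin Q : Finset ℕ) (Tc : Finset Nat.Primes) (r : ℕ) (hQ : Q.card ≤ r)
    (hTcS : ∀ v ∈ Tc, (v : ℕ) ∈ Smin)
    (hp : pPrime p ∈ primesOf (Smin ∪ Q))
    (hunr : IsUnramifiedOutsideRep (primesOf (Smin ∪ Q)) (ad0Rep ρbar))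
    (L : LocalConditions (ad0Rep ρbar)) (hL : ∀ q, L q ≤ locCont q (ad0Rep ρbar))
    (hdual : dualSelmerGroup (primesOf (Smin ∪ Q)) tp L = ⊥)
    (hLp : Module.finrank k (L (pPrime p)) ≤ h0At ρbar (pPrime p) + 1)
    (hLmin : ∀ q : Nat.Primes, (q : ℕ) ∈ Smin → (q : ℕ) ≠ p → q ∉ Tc →
      Module.finrank k (L q) ≤ h0At ρbar q)
    (hLTc : ∀ q ∈ Tc, L q = ⊥)
    (hLQ : ∀ q : Nat.Primes, (q : ℕ) ∈ Q → q ∉ Tc →
      Module.finrank k (L q) ≤ h0At ρbar q + 1) :
    FiniteDimensional k (selmerGroup (primesOf (Smin ∪ Q)) L) ∧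
      Module.finrank k (selmerGroup (primesOf (Smin ∪ Q)) L) + ∑ v ∈ Tc, h0At ρbar v ≤ r := by
  have hdat := hGW (primesOf (Smin ∪ Q)) hp hunr L hL
  refine ⟨hdat.finite_selmer, ?_⟩
  have hle := hdat.le
  unfold greenbergWilesLeAdm at hle
  have hd : selmerAdm (extArithLoc (primesOf (Smin ∪ Q))) (tateDual p (ad0Rep ρbar))
      (dualConditions (extArithLoc (primesOf (Smin ∪ Q))) (ad0Rep ρbar)
        (tateDual p (ad0Rep ρbar)) (pairingOf (primesOf (Smin ∪ Q)) tp)
        (selmerStruct (primesOf (Smin ∪ Q)) L))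
      (continuousH1S (primesOf (Smin ∪ Q)) (tateDual p (ad0Rep ρbar))) = ⊥ := hdual
  have hTcS' : Tc ⊆ primesOf (Smin ∪ Q) := fun v hv =>
    mem_primesOf.2 (Finset.mem_union_left _ (hTcS v hv))
  have h3 := ihg_sum_bound (primesOf (Smin ∪ Q)) (pPrime p) Q r hQ Tc hTcS'
    (fun q => Module.finrank k (L q)) (fun q => h0At ρbar q) (by
      intro q hq hqTc
      have hqT : (q : ℕ) ∈ Smin ∪ Q := mem_primesOf.1 hq
      by_cases hqp : q = pPrime p
      · subst hqp
        simpa using hLp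
      · have hqp' : (q : ℕ) ≠ p := fun h => hqp (Subtype.ext h)
        by_cases hqQ : (q : ℕ) ∈ Q
        · simpa [hqQ] using hLQ q hqQ hqTc
        · have hqS : (q : ℕ) ∈ Smin := by
            rcases Finset.mem_union.1 hqT with h | h
            · exact h
            · exact absurd h hqQ
          simpa [hqp, hqQ] using hLmin q hqS hqp' hqTc)
    (by
      intro q hq
      rw [hLTc q hq, finrank_bot])
  rw [hd, finrank_bot, hH0,
    sum_extArithIndex (primesOf (Smin ∪ Q)) _ 1 (fun q => h0At ρbar q.1) hArch.1 (fun _ => rfl),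
    sum_extArithIndex (primesOf (Smin ∪ Q)) _ 0 (fun q => Module.finrank k (L q.1))
      (finrank_bot _ _) (fun _ => rfl)] at hle
  unfold selmerGroup
  omega

end Dim

end

end Fermat.Agent.Ihara
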