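/-
IHARA track / [G1] (helper9): local generators of the "pro-`p` tame quotient" of a decomposition
group at a prime `q ≠ p`.

For a place `A` of `ℚ̄` over `q` we call a homomorphism `ϕ : G_ℚ → G` a *`p`-test* (`IhgTest`) if it
is trivial on the fixing subgroup of a finite extension of `ℚ` and the image of every inertia element
at `A` has `p`-power order (e.g. the reduction modulo `m^n` of a continuous representation over a
complete local ring with finite residue field of characteristic `p` whose residual representation is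
unramified at `q`).

* `ihg_test_cyclic` : for a `p`-test `ϕ` the image of inertia is cyclic, generated by `ϕ t`, and
  `ϕ (φ t φ⁻¹) = ϕ t ^ q` for every Frobenius element `φ` (from helper8's `tame_structure`);
* `ihg_test_conj_pow` : `ϕ (φ σ φ⁻¹) = ϕ σ ^ q` for EVERY inertia element `σ`;
* `IhgGen p A σ` : `σ` is an inertia element such that `ϕ (I_A) ⊆ ⟨ϕ σ⟩` for EVERY `p`-test `ϕ`;
* `ihg_exists_gen` : such a `σ` exists (product trick, no compactness argument);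
* `ihg_test_decomp` : `ϕ (D_A) ⊆ ⟨ϕ φ, ϕ σ⟩`.
-/
import Fermat.Agent.Lib.TW.Local.TameStructure

set_option autoImplicit false
set_option linter.style.haveILetI false

namespace Fermat.Agent.Ihara

open Fermat.Agent.TW ValuationSubring

local notation "Qb" => AlgebraicClosure ℚ
local notation "GQ" => (AlgebraicClosure ℚ ≃ₐ[ℚ] AlgebraicClosure ℚ)

/-! ## Elements of `p`-power order -/

section PPow

variable {G : Type*} [Group G]

/-- an element of both `p`-power and `q`-power order is trivial -/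
theorem ihg_eq_one_of_pow_pow {p q : ℕ} (hpq : Nat.Coprime p q) {x : G} {n a : ℕ}
    (h1 : x ^ p ^ n = 1) (h2 : x ^ q ^ a = 1) : x = 1 := by
  have hd1 : orderOf x ∣ p ^ n := orderOf_dvd_of_pow_eq_one h1
  have hd2 : orderOf x ∣ q ^ a := orderOf_dvd_of_pow_eq_one h2
  have hc : Nat.Coprime (p ^ n) (q ^ a) := Nat.Coprime.pow n a hpq
  have : orderOf x = 1 := Nat.eq_one_of_dvd_coprimes hc hd1 hd2
  exact orderOf_eq_one_iff.mp this

/-- if `x` has `p`-power order and `p ∤ a` then `x` is a power of `x ^ a` -/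
theorem ihg_mem_zpowers_zpow {p : ℕ} (hp : p.Prime) {x : G} {n : ℕ} (h1 : x ^ p ^ n = 1)
    {a : ℤ} (ha : ¬ (p : ℤ) ∣ a) : x ∈ Subgroup.zpowers (x ^ a) := by
  have hcop : IsCoprime a ((p : ℤ) ^ n) := by
    refine IsCoprime.pow_right ?_
    rw [Int.isCoprime_iff_gcd_eq_one]
    have h3 : Nat.Coprime a.natAbs p := by
      rw [Nat.coprime_comm]
      refine (Nat.Prime.coprime_iff_not_dvd hp).2 ?_
      intro h
      exact ha (Int.natCast_dvd.2 h)
    exact h3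
  obtain ⟨u, v, huv⟩ := hcop
  refine ⟨u, ?_⟩
  have h4 : x ^ ((p : ℤ) ^ n) = 1 := by
    have : ((p : ℤ) ^ n) = ((p ^ n : ℕ) : ℤ) := by push_cast; rfl
    rw [this, zpow_natCast, h1]
  calc (x ^ a) ^ u = x ^ (a * u) := (zpow_mul x a u).symm
    _ = x ^ (u * a + v * (p : ℤ) ^ n) * (x ^ ((p : ℤ) ^ n * v))⁻¹ := by
        rw [← zpow_neg, ← zpow_add]
        congr 1
        ring
    _ = x := by
        rw [huv, zpow_one, zpow_mul, h4, one_zpow, inv_one, mul_one]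

/-- if `x` has `p`-power order, `p ∣ a` and `x` is a power of `x ^ a`, then `x = 1` -/
theorem ihg_eq_one_of_mem_zpowers_zpow {p : ℕ} (hp : p.Prime) {x : G} {n : ℕ}
    (h1 : x ^ p ^ n = 1) {a : ℤ} (ha : (p : ℤ) ∣ a) (hx : x ∈ Subgroup.zpowers (x ^ a)) :
    x = 1 := by
  obtain ⟨b, hb⟩ := hx
  have hb' : x ^ (a * b - 1) = 1 := by
    have : (x ^ a) ^ b = x ^ (a * b) := (zpow_mul x a b).symm
    rw [zpow_sub, zpow_one, ← this]
    simp only at hb
    rw [hb, mul_inv_cancel]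
  have hnd : ¬ (p : ℤ) ∣ (a * b - 1) := by
    intro h
    have h2 : (p : ℤ) ∣ a * b := Dvd.dvd.mul_right ha b
    have h3 : (p : ℤ) ∣ 1 := by
      have := Int.dvd_sub h2 h
      simpa using this
    have h4 : (p : ℤ) = 1 ∨ (p : ℤ) = -1 := Int.isUnit_iff.1 (isUnit_of_dvd_one h3)
    rcases h4 with h4 | h4
    · have : p = 1 := by exact_mod_cast h4
      exact hp.one_lt.ne' this
    · have : (0 : ℤ) ≤ p := Int.natCast_nonneg p
      omega
  have h5 := ihg_mem_zpowers_zpow hp h1 hnd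
  rw [hb'] at h5
  rw [Subgroup.zpowers_one_eq_bot, Subgroup.mem_bot] at h5
  exact h5

end PPow

/-! ## `p`-tests -/

/-- `ϕ` is trivial on the fixing subgroup of a finite extension of `ℚ` and maps the inertia group of
`A` to elements of `p`-power order -/
structure IhgTest (p : ℕ) (A : ValuationSubring Qb) {G : Type*} [Group G] (ϕ : GQ →* G) :
    Prop where
  level : ∃ F₀ : IntermediateField ℚ Qb, FiniteDimensional ℚ F₀ ∧ F₀.fixingSubgroup ≤ ϕ.ker
  ppow : ∀ τ ∈ A.inertiaSubgroupIn ℚ, ∃ n : ℕ, ϕ τ ^ p ^ n = 1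

section Test

variable {p q : ℕ} (hp : p.Prime) (hq : q.Prime) (hpq : p ≠ q) (A : ValuationSubring Qb)
  (hA : A.LiesOverPrime q)

include hp hq hpq hA in
/-- **the image of inertia under a `p`-test is cyclic**, generated by the image of an inertia
element on which every Frobenius element acts by the `q`-th power -/
theorem ihg_test_cyclic {G : Type*} [Group G] {ϕ : GQ →* G} (hϕ : IhgTest p A ϕ) :
    ∃ t ∈ A.inertiaSubgroupIn ℚ,
      (∀ σ ∈ A.inertiaSubgroupIn ℚ, ϕ σ ∈ Subgroup.zpowers (ϕ t)) ∧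
      (∀ φ : GQ, A.IsFrobeniusAt φ q → ϕ (φ * t * φ⁻¹) = ϕ t ^ q) := by
  obtain ⟨F₀, hF₀, hker⟩ := hϕ.level
  haveI := hF₀
  have hcop : Nat.Coprime p q := (Nat.coprime_primes hp hq).2 hpq
  obtain ⟨t, ht, h1, h2⟩ := tame_structure hq A hA F₀
  refine ⟨t, ht, fun σ hσ => ?_, fun φ hφ => ?_⟩
  · obtain ⟨k, a, hka⟩ := h1 σ hσ
    have hmem : σ * t ^ (-k) ∈ A.inertiaSubgroupIn ℚ :=
      Subgroup.mul_mem _ hσ (Subgroup.zpow_mem _ ht _)
    obtain ⟨n, hn⟩ := hϕ.ppow _ hmem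
    have hqa : ϕ (σ * t ^ (-k)) ^ q ^ a = 1 := by
      rw [← map_pow]
      exact hker hka
    have h3 := ihg_eq_one_of_pow_pow hcop hn hqa
    refine ⟨k, ?_⟩
    rw [map_mul, map_zpow, zpow_neg, mul_inv_eq_one] at h3
    simp only
    rw [h3]
  · obtain ⟨a, ha⟩ := h2 φ hφ
    have hconj : φ * t * φ⁻¹ ∈ A.inertiaSubgroupIn ℚ :=
      tw_conj_mem_inertia A hφ.mem_decompositionSubgroup ht
    have hmem : φ * t * φ⁻¹ * t ^ (-(q : ℤ)) ∈ A.inertiaSubgroupIn ℚ :=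
      Subgroup.mul_mem _ hconj (Subgroup.zpow_mem _ ht _)
    obtain ⟨n, hn⟩ := hϕ.ppow _ hmem
    have hqa : ϕ (φ * t * φ⁻¹ * t ^ (-(q : ℤ))) ^ q ^ a = 1 := by
      rw [← map_pow]
      exact hker ha
    have h3 := ihg_eq_one_of_pow_pow hcop hn hqa
    rw [map_mul, map_zpow, zpow_neg, mul_inv_eq_one, zpow_natCast] at h3
    exact h3

include hp hq hpq hA in
/-- **Frobenius acts on the image of inertia under a `p`-test by the `q`-th power** -/
theorem ihg_test_conj_pow {G : Type*} [Group G] {ϕ : GQ →* G} (hϕ : IhgTest p A ϕ)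
    {φ : GQ} (hφ : A.IsFrobeniusAt φ q) {σ : GQ} (hσ : σ ∈ A.inertiaSubgroupIn ℚ) :
    ϕ (φ * σ * φ⁻¹) = ϕ σ ^ q := by
  obtain ⟨t, -, h1, h2⟩ := ihg_test_cyclic hp hq hpq A hA hϕ
  obtain ⟨k, hk⟩ := h1 σ hσ
  simp only at hk
  have h3 := h2 φ hφ
  rw [map_mul, map_mul, map_inv] at h3 ⊢
  rw [← hk]
  have h4 : ϕ φ * ϕ t ^ k * (ϕ φ)⁻¹ = (ϕ φ * ϕ t * (ϕ φ)⁻¹) ^ k := by
    exact (conj_zpow (a := ϕ φ) (b := ϕ t) (i := k)).symm
  rw [h4, h3, ← zpow_natCast, ← zpow_natCast, ← zpow_mul, ← zpow_mul, mul_comm]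

end Test

/-! ## Universal generators -/

/-- `σ` is an inertia element at `A` whose image generates the image of inertia under every
`p`-test (with values in a group in `Type`) -/
structure IhgGen (p : ℕ) (A : ValuationSubring Qb) (σ : GQ) : Prop where
  mem : σ ∈ A.inertiaSubgroupIn ℚ
  gen : ∀ {G : Type} [Group G] (ϕ : GQ →* G), IhgTest p A ϕ →
    ∀ τ ∈ A.inertiaSubgroupIn ℚ, ϕ τ ∈ Subgroup.zpowers (ϕ σ)

section Exists

variable {p q : ℕ} (hp : p.Prime) (hq : q.Prime) (hpq : p ≠ q) (A : ValuationSubring Qb)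
  (hA : A.LiesOverPrime q)

/-- the product of two `p`-tests is a `p`-test -/
theorem IhgTest.prod {G₁ G₂ : Type*} [Group G₁] [Group G₂] {ϕ₁ : GQ →* G₁} {ϕ₂ : GQ →* G₂}
    (h₁ : IhgTest p A ϕ₁) (h₂ : IhgTest p A ϕ₂) : IhgTest p A (ϕ₁.prod ϕ₂) := by
  obtain ⟨F₁, hF₁, hk₁⟩ := h₁.level
  obtain ⟨F₂, hF₂, hk₂⟩ := h₂.level
  haveI := hF₁
  haveI := hF₂
  refine ⟨⟨F₁ ⊔ F₂, IntermediateField.finiteDimensional_sup F₁ F₂, fun s hs => ?_⟩,
    fun τ hτ => ?_⟩
  · rw [MonoidHom.mem_ker, MonoidHom.prod_apply, Prod.mk_eq_one]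
    exact ⟨hk₁ (IntermediateField.fixingSubgroup_antitone le_sup_left hs),
      hk₂ (IntermediateField.fixingSubgroup_antitone le_sup_right hs)⟩
  · obtain ⟨n₁, hn₁⟩ := h₁.ppow τ hτ
    obtain ⟨n₂, hn₂⟩ := h₂.ppow τ hτ
    refine ⟨n₁ + n₂, ?_⟩
    rw [MonoidHom.prod_apply, Prod.pow_mk, Prod.mk_eq_one]
    constructor
    · rw [pow_add, pow_mul, hn₁, one_pow]
    · rw [pow_add, mul_comm, pow_mul, hn₂, one_pow]

include hp hq hpq hA in
/-- **a universal generator of the pro-`p` tame inertia exists** -/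
theorem ihg_exists_gen : ∃ σ : GQ, IhgGen p A σ := by
  classical
  by_cases htriv : ∀ (G : Type) (_ : Group G) (ϕ : GQ →* G), IhgTest p A ϕ →
      ∀ τ ∈ A.inertiaSubgroupIn ℚ, ϕ τ = 1
  · refine ⟨1, Subgroup.one_mem _, fun {G} _ ϕ hϕ τ hτ => ?_⟩
    rw [htriv G _ ϕ hϕ τ hτ]
    exact Subgroup.one_mem _
  · push Not at htriv
    obtain ⟨G₀, _, ϕ₀, hϕ₀, τ₀, hτ₀, hne⟩ := htriv
    obtain ⟨t₀, ht₀, hgen₀, -⟩ := ihg_test_cyclic hp hq hpq A hA hϕ₀
    refine ⟨t₀, ht₀, fun {G} _ ϕ hϕ τ hτ => ?_⟩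
    -- the product test
    have hψ : IhgTest p A (ϕ₀.prod ϕ) := hϕ₀.prod A hϕ
    obtain ⟨t, ht, hgen, -⟩ := ihg_test_cyclic hp hq hpq A hA hψ
    obtain ⟨a, ha⟩ := hgen t₀ ht₀
    simp only at ha
    obtain ⟨n, hn⟩ := hψ.ppow t ht
    -- `p ∤ a`
    have hpa : ¬ (p : ℤ) ∣ a := by
      intro hdiv
      -- then `ϕ₀ t = 1`
      have h1 : ϕ₀ t₀ = ϕ₀ t ^ a := by
        have := congrArg Prod.fst ha
        simpa [MonoidHom.prod_apply] using this.symm
      obtain ⟨b, hb⟩ := hgen₀ t ht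
      simp only at hb
      have hn₀ : ϕ₀ t ^ p ^ n = 1 := by
        have := congrArg Prod.fst hn
        simpa [MonoidHom.prod_apply] using this
      have h2 : ϕ₀ t ∈ Subgroup.zpowers (ϕ₀ t ^ a) := ⟨b, by simp only; rw [← h1, hb]⟩
      have h3 : ϕ₀ t = 1 := ihg_eq_one_of_mem_zpowers_zpow hp hn₀ hdiv h2
      -- hence `ϕ₀ τ₀ = 1`
      obtain ⟨c, hc⟩ := hgen τ₀ hτ₀
      simp only at hc
      have h4 : ϕ₀ τ₀ = ϕ₀ t ^ c := by
        have := congrArg Prod.fst hc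
        simpa [MonoidHom.prod_apply] using this.symm
      rw [h3, one_zpow] at h4
      exact hne h4
    -- `ψ t` is a power of `ψ t₀`
    have h5 : (ϕ₀.prod ϕ) t ∈ Subgroup.zpowers ((ϕ₀.prod ϕ) t ^ a) :=
      ihg_mem_zpowers_zpow hp hn hpa
    rw [ha] at h5
    obtain ⟨c, hc⟩ := hgen τ hτ
    simp only at hc
    have h6 : (ϕ₀.prod ϕ) τ ∈ Subgroup.zpowers ((ϕ₀.prod ϕ) t₀) := by
      rw [← hc]
      exact Subgroup.zpow_mem _ h5 c
    obtain ⟨d, hd⟩ := h6
    simp only at hd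
    refine ⟨d, ?_⟩
    have := congrArg Prod.snd hd
    simpa [MonoidHom.prod_apply] using this

end Exists

/-! ## The decomposition group -/

section Decomp

variable {p q : ℕ} (hq : q.Prime) (A : ValuationSubring Qb) (hA : A.LiesOverPrime q)

include hq hA in
/-- **the image of the decomposition group under a `p`-test**: `ϕ τ = ϕ φ ^ n * ϕ ι` for a
Frobenius element `φ`, an inertia element `ι` and `n : ℕ` -/
theorem ihg_test_decomp {G : Type*} [Group G] {ϕ : GQ →* G} (hϕ : IhgTest p A ϕ)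
    {φ : GQ} (hφ : A.IsFrobeniusAt φ q) {τ : GQ} (hτ : τ ∈ A.decompositionSubgroup ℚ) :
    ∃ n : ℕ, ∃ ι ∈ A.inertiaSubgroupIn ℚ, ϕ τ = ϕ φ ^ n * ϕ ι := by
  obtain ⟨F₀, hF₀, hker⟩ := hϕ.level
  haveI := hF₀
  haveI : Algebra.IsAlgebraic ℚ Qb := AlgebraicClosure.isAlgebraic ℚ
  haveI : IsAlgClosure ℚ Qb := ⟨inferInstance, inferInstance⟩
  haveI : Normal ℚ Qb := IsAlgClosure.normal ℚ Qb
  set F' : IntermediateField ℚ Qb := IntermediateField.normalClosure ℚ ↥F₀ Qb with hF'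
  have hfd' : FiniteDimensional ℚ ↥F' := normalClosure.is_finiteDimensional ℚ _ Qb
  have hnorm : Normal ℚ ↥F' := normalClosure.normal ℚ _ Qb
  have hnorm' : @Normal ℚ ↥F' _ _ F'.algebra' := by
    convert hnorm using 1
    exact Subsingleton.elim _ _
  have hle : F₀ ≤ F' := IntermediateField.le_normalClosure _
  obtain ⟨n, ι, hι, hn⟩ := tw_decomp_eq_frob_pow_mul_inertia F' hfd' hnorm' hq hA hφ hτ
  refine ⟨n, ι, hι, ?_⟩
  have hmem : (φ ^ n * ι)⁻¹ * τ ∈ F₀.fixingSubgroup := by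
    rw [IntermediateField.mem_fixingSubgroup_iff]
    intro x hx
    change (φ ^ n * ι)⁻¹ (τ x) = x
    rw [hn x (hle hx)]
    change (φ ^ n * ι).symm ((φ ^ n * ι) x) = x
    exact (φ ^ n * ι).symm_apply_apply x
  have h1 : ϕ ((φ ^ n * ι)⁻¹ * τ) = 1 := hker hmem
  rw [map_mul, map_inv, inv_mul_eq_one] at h1
  rw [← h1, map_mul, map_pow]

end Decomp

end Fermat.Agent.Ihara
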