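/-
IHARA track / [G1] (helper9): local analysis at a C-prime `v ≠ p` (a prime where `ρbar` is
unramified and `ρbar|_{D_v}` is scalar).

* `ihg_rbar_decomp_scalar` : `ρbar τ` is a scalar for all `τ` in the decomposition group;
* `ihg_h0At_eq_three` : `h⁰(G_v, ad⁰ ρbar) = 3`;
* `ihg_isTest_dualLift` : a continuous lift of `ρbar` to `k[ε]` is a `p`-test at `v`;
* `ihg_mSnd_eq_zero_of_gen` : if the `ε`-part of such a lift vanishes at a Frobenius element and at
  a universal tame generator, it vanishes on the whole decomposition group.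
-/
import Fermat.Agent.Lib.Ihara.G1.LocGen
import Fermat.Agent.Lib.TW.Points

set_option autoImplicit false
set_option linter.unusedSectionVars false
set_option linter.style.haveILetI false

open Fermat.Agent.S53Lib Fermat.Agent.TW IsLocalRing groupCohomology ExtCitation

namespace Fermat.Agent.Ihara

noncomputable section

local notation "Qb" => AlgebraicClosure ℚ

variable {k : Type} [Field k]

/-! ## Scalars -/

section Scalar

variable (ρbar : ResidualGaloisRep k) {p q : ℕ} (hq : q.Prime) (A : ValuationSubring Qb)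
  (hA : A.LiesOverPrime q)

/-- `ρbar`, with values in the units of `End V`, is a `p`-test at every place where it is
unramified -/
theorem ihg_isTest_rbar (hunr : ∀ τ ∈ A.inertiaSubgroupIn ℚ, ρbar.ρ τ = 1) :
    IhgTest p A ρbar.ρ.toHomUnits := by
  obtain ⟨L, hL, h1⟩ := ρbar.factorsThroughFiniteLevel
  refine ⟨⟨L, hL, fun s hs => ?_⟩, fun τ hτ => ⟨0, ?_⟩⟩
  · rw [MonoidHom.mem_ker]
    apply Units.ext
    rw [MonoidHom.coe_toHomUnits, Units.val_one]
    exact h1 s ((IntermediateField.mem_fixingSubgroup_iff _ _).1 hs)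
  · rw [pow_zero, pow_one]
    apply Units.ext
    rw [MonoidHom.coe_toHomUnits, Units.val_one]
    exact hunr τ hτ

include hq hA in
/-- if `ρbar` is unramified at `A` and `ρbar φ` is a scalar for a Frobenius element `φ`, then
`ρbar τ` is a scalar for every `τ` in the decomposition group -/
theorem ihg_rbar_decomp_scalar (hunr : ∀ τ ∈ A.inertiaSubgroupIn ℚ, ρbar.ρ τ = 1)
    {φ : GQ} (hφ : A.IsFrobeniusAt φ q) {c : k} (hc : ρbar.ρ φ = c • 1)
    {τ : GQ} (hτ : τ ∈ A.decompositionSubgroup ℚ) : ∃ d : k, ρbar.ρ τ = d • 1 := by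
  obtain ⟨n, ι, hι, h1⟩ := ihg_test_decomp (p := 1) hq A hA (ihg_isTest_rbar ρbar A hunr) hφ hτ
  have h2 := congrArg (fun u : (Module.End k ρbar.V)ˣ => (u : Module.End k ρbar.V)) h1
  simp only [Units.val_mul, Units.val_pow_eq_pow_val, MonoidHom.coe_toHomUnits] at h2
  rw [hunr ι hι, mul_one, hc] at h2
  refine ⟨c ^ n, ?_⟩
  rw [h2, smul_pow, one_pow]

end Scalar

/-! ## `h⁰ = 3` -/

section H0

variable (ρbar : ResidualGaloisRep k)

/-- `dim ad⁰ ρbar = 3` -/
theorem ihg_finrank_ad0 : Module.finrank k (ad0Rep ρbar).V = 3 := by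
  change Module.finrank k (ad0Sub ρbar) = 3
  unfold ad0Sub
  have hV : Module.finrank k ρbar.V = 2 := ρbar.finrank_eq
  have h1 := LinearMap.finrank_range_add_finrank_ker (LinearMap.trace k ρbar.V)
  have h2 : Module.finrank k (Module.End k ρbar.V) = 4 := by
    rw [Module.finrank_linearMap, hV]
  have h3 : LinearMap.range (LinearMap.trace k ρbar.V) = ⊤ := by
    rw [LinearMap.range_eq_top]
    intro a
    haveI : Nontrivial ρbar.V := Module.nontrivial_of_finrank_pos (R := k) (by rw [hV]; norm_num)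
    have h2ne : ((Module.finrank k ρbar.V : ℕ) : k) • (1 : k) = (2 : k) := by
      rw [hV]; simp
    -- use a rank one projection: pick a basis
    let bb : Module.Basis (Fin 2) k ρbar.V := Module.finBasisOfFinrankEq _ _ hV
    refine ⟨a • Matrix.toLin bb bb (Matrix.single 0 0 (1 : k)), ?_⟩
    rw [map_smul, LinearMap.trace_eq_matrix_trace k bb, LinearMap.toMatrix_toLin,
      Matrix.trace_single_eq_same, smul_eq_mul, mul_one]
  rw [h3, finrank_top, Module.finrank_self, h2] at h1
  exact Nat.add_left_cancel (show 1 + _ = 1 + 3 from h1)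

/-- at a prime where `ρbar` restricted to the local Galois group is scalar, `h⁰ = 3` -/
theorem ihg_h0At_eq_three (v : Nat.Primes)
    (hsc : ∀ g : primeLocalGaloisGroup v, ∃ d : k, ρbar.ρ (primeLocalToGlobal v g) = d • 1) :
    h0At ρbar v = 3 := by
  unfold h0At
  have htop : (locAt v (ad0Rep ρbar)).ρ.invariants = ⊤ := by
    rw [eq_top_iff]
    intro x _
    rw [Representation.mem_invariants]
    intro g
    obtain ⟨d, hd⟩ := hsc g
    change (ad0Rep ρbar).ρ (primeLocalToGlobal v g) x = x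
    apply ad0Val_injective
    rw [ad0Val_ρ, adRepn_apply]
    have hinv : ρbar.ρ (primeLocalToGlobal v g) * ρbar.ρ (primeLocalToGlobal v g)⁻¹ = 1 :=
      rho_mul_rho_inv ρbar _
    rw [hd] at hinv ⊢
    -- `d • 1 ∘ f ∘ (d • 1)⁻¹ = f`
    have h1 : (d • (1 : Module.End k ρbar.V)) ∘ₗ ad0Val ρbar x ∘ₗ
        ρbar.ρ (primeLocalToGlobal v g)⁻¹ =
        ad0Val ρbar x ∘ₗ ((d • (1 : Module.End k ρbar.V)) ∘ₗ
          ρbar.ρ (primeLocalToGlobal v g)⁻¹) := by
      ext y
      simp
    rw [h1]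
    have h2 : (d • (1 : Module.End k ρbar.V)) ∘ₗ ρbar.ρ (primeLocalToGlobal v g)⁻¹ = 1 := hinv
    rw [h2]
    rfl
  rw [htop, finrank_top]
  exact ihg_finrank_ad0 ρbar

end H0

/-! ## Lifts to the dual numbers -/

section Dual

variable {ρbar : ResidualGaloisRep k} {b : Module.Basis (Fin 2) k ρbar.V}

lemma ihg_mSnd_pow {M : Matrix (Fin 2) (Fin 2) (DualNumber k)} (h1 : mFst M = 1) (n : ℕ) :
    mFst (M ^ n) = 1 ∧ mSnd (M ^ n) = n • mSnd M := by
  induction n with
  | zero => rw [pow_zero, mFst_one, mSnd_one, zero_smul]; exact ⟨rfl, rfl⟩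
  | succ n ih =>
    rw [pow_succ, mFst_mul, mSnd_mul, ih.1, ih.2, h1, one_mul, mul_one, one_mul, succ_nsmul]
    exact ⟨rfl, add_comm _ _⟩

lemma ihg_mSnd_pow_eq_zero {M : Matrix (Fin 2) (Fin 2) (DualNumber k)} (h0 : mSnd M = 0)
    (n : ℕ) : mSnd (M ^ n) = 0 := by
  induction n with
  | zero => rw [pow_zero, mSnd_one]
  | succ n ih => rw [pow_succ, mSnd_mul, ih, h0, mul_zero, zero_mul, add_zero]

variable {p q : ℕ} [Fact p.Prime] (hpk : (p : k) = 0) (A : ValuationSubring Qb)

include hpk in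
/-- a continuous lift of `ρbar` to `k[ε]` is a `p`-test at every place where `ρbar` is unramified -/
theorem ihg_isTest_dualLift {r : GQ →* Matrix (Fin 2) (Fin 2) (DualNumber k)}
    (h : MatCts (DualNumber k) r) (hr : IsDualLift ρbar b r)
    (hunr : ∀ τ ∈ A.inertiaSubgroupIn ℚ, ρbar.ρ τ = 1) : IhgTest p A r.toHomUnits := by
  obtain ⟨L, hL, h2⟩ := h 2
  refine ⟨⟨L, hL, fun s hs => ?_⟩, fun τ hτ => ⟨1, ?_⟩⟩
  · rw [MonoidHom.mem_ker]
    apply Units.ext
    rw [MonoidHom.coe_toHomUnits, Units.val_one]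
    refine Matrix.ext fun i j => ?_
    have := h2 s ((IntermediateField.mem_fixingSubgroup_iff _ _).1 hs) i j
    rw [dn_maximalIdeal_sq, Ideal.mem_bot, Matrix.sub_apply, sub_eq_zero] at this
    exact this
  · rw [pow_one]
    apply Units.ext
    rw [Units.val_pow_eq_pow_val, MonoidHom.coe_toHomUnits, Units.val_one]
    have h1 : mFst (r τ) = 1 := by
      rw [hr τ]
      unfold rbarMat
      rw [hunr τ hτ, Module.End.one_eq_id, LinearMap.toMatrix_id]
    obtain ⟨h3, h4⟩ := ihg_mSnd_pow h1 p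
    refine mat_ext_fst_snd ?_ ?_
    · rw [h3, mFst_one]
    · rw [h4, mSnd_one]
      have : (p : ℕ) • mSnd (r τ) = ((p : ℕ) : k) • mSnd (r τ) := by
        rw [Nat.cast_smul_eq_nsmul]
      rw [this, hpk, zero_smul]

variable (hp : p.Prime) (hq : q.Prime) (hpq : p ≠ q) (hA : A.LiesOverPrime q)

include hpk hp hq hpq hA in
/-- **local triviality from the generators**: if the `ε`-part of a continuous lift of `ρbar` to
`k[ε]` vanishes at a Frobenius element `φ` and at a universal tame generator `σ`, then it vanishes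
on the decomposition group -/
theorem ihg_mSnd_eq_zero_of_gen {r : GQ →* Matrix (Fin 2) (Fin 2) (DualNumber k)}
    (h : MatCts (DualNumber k) r) (hr : IsDualLift ρbar b r)
    (hunr : ∀ τ ∈ A.inertiaSubgroupIn ℚ, ρbar.ρ τ = 1)
    {φ σ : GQ} (hφ : A.IsFrobeniusAt φ q) (hσ : IhgGen p A σ)
    (h1 : mSnd (r φ) = 0) (h2 : mSnd (r σ) = 0)
    {τ : GQ} (hτ : τ ∈ A.decompositionSubgroup ℚ) : mSnd (r τ) = 0 := by
  have htest := ihg_isTest_dualLift (b := b) hpk A h hr hunr
  -- `r σ = 1`
  have hσ1 : r σ = 1 := by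
    refine mat_ext_fst_snd ?_ ?_
    · rw [hr σ, mFst_one]
      unfold rbarMat
      rw [hunr σ hσ.mem, Module.End.one_eq_id, LinearMap.toMatrix_id]
    · rw [h2, mSnd_one]
  have hσ1' : r.toHomUnits σ = 1 := by
    apply Units.ext
    rw [MonoidHom.coe_toHomUnits, Units.val_one, hσ1]
  -- inertia acts trivially
  have hI : ∀ ι ∈ A.inertiaSubgroupIn ℚ, r ι = 1 := by
    intro ι hι
    have h3 := hσ.gen r.toHomUnits htest ι hι
    rw [hσ1', Subgroup.zpowers_one_eq_bot, Subgroup.mem_bot] at h3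
    have := congrArg (fun u : (Matrix (Fin 2) (Fin 2) (DualNumber k))ˣ =>
      (u : Matrix (Fin 2) (Fin 2) (DualNumber k))) h3
    simpa [MonoidHom.coe_toHomUnits] using this
  obtain ⟨n, ι, hι, h4⟩ := ihg_test_decomp hq A hA htest hφ hτ
  have h5 := congrArg (fun u : (Matrix (Fin 2) (Fin 2) (DualNumber k))ˣ =>
    (u : Matrix (Fin 2) (Fin 2) (DualNumber k))) h4
  simp only [Units.val_mul, Units.val_pow_eq_pow_val, MonoidHom.coe_toHomUnits] at h5
  rw [h5, hI ι hι, mul_one]
  exact ihg_mSnd_pow_eq_zero h1 n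

end Dual

end

end Fermat.Agent.Ihara
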