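/-
IHARA track / [G1] (helper9): the points in `k[ε]` of a *test datum* and their tangent classes.

A test datum is a local `𝒪`-algebra `A` with residue field `k = 𝒪/m` together with a continuous
matrix representation `rA : G_ℚ → M₂(A)` lifting strictly the matrices of `ρbar` in a basis `b`.
This file is the analogue of `Lib/TW/Points.lean` with the universal deformation `DQ.ρ` replaced by
`rA`; universality is replaced by the hypothesis that the points of `A` are determined by the
traces of `rA` (`IhgTraceDet`), which holds for Hecke algebras.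
-/
import Fermat.Agent.Lib.TW.Wiring

set_option autoImplicit false
set_option linter.unusedSectionVars false
set_option linter.style.haveILetI false

open Fermat.Agent.S53Lib Fermat.Agent.TW IsLocalRing groupCohomology ExtCitation CategoryTheory
  GaloisRep

namespace Fermat.Agent.Ihara

noncomputable section

section Datum

variable {𝒪 : Type} [CommRing 𝒪] [IsLocalRing 𝒪]
  {ρbar : ResidualGaloisRep (ResidueField 𝒪)}
  (b : Module.Basis (Fin 2) (ResidueField 𝒪) ρbar.V)
  {A : Type} [CommRing A] [IsLocalRing A] [Algebra 𝒪 A] [hlocA : IsLocalHom (algebraMap 𝒪 A)]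
  (hres : Function.Surjective (residue A ∘ algebraMap 𝒪 A))
  (rA : GQ →* Matrix (Fin 2) (Fin 2) A) (hcts : MatCts A rA)
  (hstrict : IsStrictLift (𝒪 := 𝒪) (resMat ρbar b) rA)

attribute [local instance] dualNumberAlgebra
attribute [local instance] isLocalHom_algebraMap_dualNumber

/-- the points of `A` in `k[ε]` are determined by the traces of `rA` -/
def IhgTraceDet (rA : GQ →* Matrix (Fin 2) (Fin 2) A) : Prop :=
  ∀ f f' : A →ₐ[𝒪] DualNumber (ResidueField 𝒪),
    (∀ σ : GQ, f ((rA σ).trace) = f' ((rA σ).trace)) → f = f'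

include hres in
lemma ihg_pt_isLocalHom (f : A →ₐ[𝒪] DualNumber (ResidueField 𝒪)) :
    IsLocalHom (f : A →+* DualNumber (ResidueField 𝒪)) :=
  isLocalHom_of_algHom hlocA hres
    (isLocalHom_algebraMap_dualNumber 𝒪) (isArtinianTestAlgebra_dualNumber 𝒪).residue_surjective f

/-- the matrix lift of `ρbar` to `k[ε]` attached to a point of `A` -/
def ihgPtMat (f : A →ₐ[𝒪] DualNumber (ResidueField 𝒪)) :
    GQ →* Matrix (Fin 2) (Fin 2) (DualNumber (ResidueField 𝒪)) :=
  mapMat (f : A →+* DualNumber (ResidueField 𝒪)) rA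

lemma ihgPtMat_apply (f : A →ₐ[𝒪] DualNumber (ResidueField 𝒪)) (σ : GQ) :
    ihgPtMat rA f σ = (rA σ).map f := rfl

include hres hcts in
lemma ihgPtMat_cts (f : A →ₐ[𝒪] DualNumber (ResidueField 𝒪)) :
    MatCts (DualNumber (ResidueField 𝒪)) (ihgPtMat rA f) :=
  hcts.map _ (ihg_pt_isLocalHom hres f)

include hres hstrict in
lemma ihgPtMat_strict (f : A →ₐ[𝒪] DualNumber (ResidueField 𝒪)) :
    IsStrictLift (𝒪 := 𝒪) (resMat ρbar b) (ihgPtMat rA f) :=
  hstrict.map f (ihg_pt_isLocalHom hres f)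

include hres hstrict in
lemma ihgPtMat_isDualLift (f : A →ₐ[𝒪] DualNumber (ResidueField 𝒪)) :
    IsDualLift ρbar b (ihgPtMat rA f) :=
  isDualLift_of_isStrictLift ρbar b (ihgPtMat_strict b hres rA hstrict f)

include hres in
lemma ihgPtMat_equiv (f : A →ₐ[𝒪] DualNumber (ResidueField 𝒪)) :
    ((ofMat rA hcts).baseChangeAlong (f : A →+* DualNumber (ResidueField 𝒪))
      (ihg_pt_isLocalHom hres f)).IsEquiv
      (ofMat (ihgPtMat rA f) (ihgPtMat_cts hres rA hcts f)) :=
  baseChangeAlong_ofMat rA hcts (f : A →+* DualNumber (ResidueField 𝒪)) (ihg_pt_isLocalHom hres f)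

variable (p : ℕ) [Fact p.Prime] (hpk : (p : ResidueField 𝒪) = 0)
  (hdet : (ofMat rA hcts).DetIsCyclotomic p)

include hres hdet in
lemma ihgPtMat_detIsCyclotomic (f : A →ₐ[𝒪] DualNumber (ResidueField 𝒪)) :
    (ofMat (ihgPtMat rA f) (ihgPtMat_cts hres rA hcts f)).DetIsCyclotomic p :=
  detIsCyclotomic_of_isEquiv (ihgPtMat_equiv hres rA hcts f)
    (detIsCyclotomic_baseChangeAlong _ _ _ hdet)

include hres hpk hdet in
lemma ihgPtMat_hasResidualDet (f : A →ₐ[𝒪] DualNumber (ResidueField 𝒪)) :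
    HasResidualDet (ihgPtMat rA f) :=
  hasResidualDet_of_detIsCyclotomic p hpk _ _ (ihgPtMat_detIsCyclotomic hres rA hcts p hdet f)

/-- the tangent class of a point of `A` -/
def ihgPtClass (f : A →ₐ[𝒪] DualNumber (ResidueField 𝒪)) : H1 (ad0Rep ρbar) :=
  tangentClass (ihgPtMat rA f) (ihgPtMat_isDualLift b hres rA hstrict f)
    (ihgPtMat_hasResidualDet hres rA hcts p hpk hdet f)

/-- the trace of a conjugate -/
lemma ihg_trace_conj {R : Type*} [CommRing R] (u : (Matrix (Fin 2) (Fin 2) R)ˣ)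
    (M : Matrix (Fin 2) (Fin 2) R) :
    ((u : Matrix (Fin 2) (Fin 2) R) * M *
      ((u⁻¹ : (Matrix (Fin 2) (Fin 2) R)ˣ) : Matrix (Fin 2) (Fin 2) R)).trace = M.trace := by
  rw [Matrix.trace_mul_cycle, Units.inv_mul, one_mul]

/-- **injectivity of the tangent map** for a trace-determined datum -/
theorem ihgPtClass_injective (htr : IhgTraceDet (𝒪 := 𝒪) rA) :
    Function.Injective (ihgPtClass b hres rA hcts hstrict p hpk hdet) := by
  intro f f' h
  apply htr
  intro σ
  obtain ⟨u, hu⟩ := exists_conj_of_tangentClass_eq _ _ _ _ h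
  have h1 := congrArg Matrix.trace (hu σ)
  rw [ihg_trace_conj] at h1
  rw [ihgPtMat_apply, ihgPtMat_apply] at h1
  have h2 : ∀ g : A →ₐ[𝒪] DualNumber (ResidueField 𝒪), ((rA σ).map g).trace = g ((rA σ).trace) := by
    intro g
    simp [Matrix.trace, Matrix.diag]
  rw [h2, h2] at h1
  exact h1.symm

/-- the `ε`-part of a non-surjective point vanishes -/
lemma ihg_pt_snd_eq_zero_of_not_surjective (f : A →ₐ[𝒪] DualNumber (ResidueField 𝒪))
    (hf : ¬ Function.Surjective f) (x : A) : TrivSqZeroExt.snd (f x) = 0 := by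
  by_contra hne
  apply hf
  obtain ⟨c, hc⟩ := residue_surjective (TrivSqZeroExt.fst (f x))
  have h1 : f (x - algebraMap 𝒪 A c) = TrivSqZeroExt.inr (TrivSqZeroExt.snd (f x)) := by
    rw [map_sub, AlgHom.commutes]
    have h2 : algebraMap 𝒪 (DualNumber (ResidueField 𝒪)) c =
        TrivSqZeroExt.inl (residue 𝒪 c) := rfl
    rw [h2, hc]
    apply TrivSqZeroExt.ext <;> simp
  intro y
  obtain ⟨c1, hc1⟩ := residue_surjective (TrivSqZeroExt.fst y)
  obtain ⟨c2, hc2⟩ := residue_surjective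
    (TrivSqZeroExt.snd y * (TrivSqZeroExt.snd (f x))⁻¹)
  refine ⟨algebraMap 𝒪 A c1 + algebraMap 𝒪 A c2 * (x - algebraMap 𝒪 A c), ?_⟩
  rw [map_add, map_mul, h1, AlgHom.commutes, AlgHom.commutes]
  have h2 : ∀ c : 𝒪, algebraMap 𝒪 (DualNumber (ResidueField 𝒪)) c =
      TrivSqZeroExt.inl (residue 𝒪 c) := fun _ => rfl
  rw [h2, h2, hc1, hc2]
  apply TrivSqZeroExt.ext
  · simp
  · simp only [TrivSqZeroExt.snd_add, TrivSqZeroExt.snd_inl, TrivSqZeroExt.snd_mul,
      TrivSqZeroExt.fst_inl, TrivSqZeroExt.snd_inr, TrivSqZeroExt.fst_inr, smul_eq_mul,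
      MulOpposite.smul_eq_mul_unop, MulOpposite.unop_op, zero_add, zero_mul, add_zero]
    rw [mul_assoc, inv_mul_cancel₀ hne, mul_one]

lemma ihgPtClass_eq_zero_of_not_surjective (f : A →ₐ[𝒪] DualNumber (ResidueField 𝒪))
    (hf : ¬ Function.Surjective f) : ihgPtClass b hres rA hcts hstrict p hpk hdet f = 0 := by
  unfold ihgPtClass
  apply tangentClass_eq_zero_of_mSnd
  intro σ
  ext i j
  show TrivSqZeroExt.snd (f (rA σ i j)) = 0
  exact ihg_pt_snd_eq_zero_of_not_surjective f hf _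

end Datum

end

end Fermat.Agent.Ihara
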