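/-
IHARA track / [G1] (helper9): the tangent class of a point of a test datum of type `twCond` which is
locally trivial at the primes of `Tc` lies in the Selmer group (any local condition at `Tc`, in
particular `0`).  Analogue of `ptClass_mem_selmerGroup`.
-/
import Fermat.Agent.Lib.Ihara.G1.Datum

set_option autoImplicit false
set_option linter.unusedSectionVars false
set_option linter.style.haveILetI false

open Fermat.Agent.S53Lib Fermat.Agent.TW IsLocalRing groupCohomology ExtCitation CategoryTheory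
  GaloisRep

namespace Fermat.Agent.Ihara

noncomputable section

section Zero

variable {k : Type} [Field k] {ρbar : ResidualGaloisRep k} {b : Module.Basis (Fin 2) k ρbar.V}

/-- the restriction to `G_q` of the tangent class of a lift whose `ε`-part vanishes on `G_q` is
zero -/
theorem ihg_resAt_tangentClass_eq_zero (q : Nat.Primes)
    (r : GQ →* Matrix (Fin 2) (Fin 2) (DualNumber k))
    (hr : IsDualLift ρbar b r) (hdet : HasResidualDet r)
    (h0 : ∀ g : primeLocalGaloisGroup q, mSnd (r (primeLocalToGlobal q g)) = 0) :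
    resAt q (ad0Rep ρbar) (tangentClass r hr hdet) = 0 := by
  rw [resAt_tangentClass]
  have hc : resCocycle q (ad0Rep ρbar) (tangentCocycle r hr hdet) = 0 := by
    apply Subtype.ext
    funext g
    apply ad0Val_injective
    refine (ad0Val_resCocycle_tangentCocycle q r hr hdet g).trans ?_
    unfold tangentMat
    rw [h0 g, zero_mul, map_zero]
    rfl
  rw [hc, map_zero]

end Zero

section Main

variable {𝒪 : Type} [CommRing 𝒪] [IsDomain 𝒪] [IsDiscreteValuationRing 𝒪]
  [IsAdicComplete (maximalIdeal 𝒪) 𝒪] [Finite (ResidueField 𝒪)]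

attribute [local instance] dualNumberAlgebra
attribute [local instance] isLocalHom_algebraMap_dualNumber

variable (p : ℕ) [Fact p.Prime] (ρbar : ResidualGaloisRep (ResidueField 𝒪))
  (b : Module.Basis (Fin 2) (ResidueField 𝒪) ρbar.V)
  (X : ∀ ⦃A : Type⦄ [CommRing A] [IsLocalRing A], GaloisRepAdic A → Prop)
  {A : Type} [CommRing A] [IsLocalRing A] [Algebra 𝒪 A] [hlocA : IsLocalHom (algebraMap 𝒪 A)]
  (hres : Function.Surjective (residue A ∘ algebraMap 𝒪 A))
  (rA : GQ →* Matrix (Fin 2) (Fin 2) A) (hcts : MatCts A rA)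
  (hstrict : IsStrictLift (𝒪 := 𝒪) (resMat ρbar b) rA)

/-- the tangent class of a point, locally trivial at `Tc`, of a test datum of type `twCond` lies in
the Selmer group -/
theorem ihgPtClass_mem_selmerGroup
    (hXbc : ∀ ⦃A : Type⦄ [CommRing A] [IsLocalRing A]
      (φ : A →+* DualNumber (ResidueField 𝒪)) (hφ : IsLocalHom φ), Function.Surjective φ →
      ∀ ρ : GaloisRepAdic A, X ρ → X (ρ.baseChangeAlong φ hφ))
    (hpk : (p : ResidueField 𝒪) = 0)
    (Smin T : Finset ℕ) (Tc : Finset Nat.Primes)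
    (L : LocalConditions (ad0Rep ρbar))
    (hLp : TangentClassesIn ρbar b (fun ρ' => ρ'.DetIsCyclotomic p ∧ X ρ') (pPrime p)
      (L (pPrime p)))
    (hLmin : ∀ q : Nat.Primes, (q : ℕ) ∈ Smin → (q : ℕ) ≠ p →
      TangentClassesIn ρbar b (fun ρ' => ρ'.IsUnipotentOnInertiaAt q) q (L q))
    (hLtop : ∀ q : Nat.Primes, (q : ℕ) ∉ Smin → q ∉ Tc → L q = locCont q (ad0Rep ρbar))
    (hArch : ContractArch ρbar)
    (htype : twCond 𝒪 X p Smin T (ofMat rA hcts))
    (f : A →ₐ[𝒪] DualNumber (ResidueField 𝒪))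
    (hloc : ∀ v ∈ Tc, ∀ g : primeLocalGaloisGroup v,
      mSnd (ihgPtMat rA f (primeLocalToGlobal v g)) = 0) :
    ihgPtClass b hres rA hcts hstrict p hpk htype.1.1 f ∈ selmerGroup (primesOf T) L := by
  by_cases hs : Function.Surjective f
  swap
  · rw [ihgPtClass_eq_zero_of_not_surjective b hres rA hcts hstrict p hpk _ f hs]
    exact Submodule.zero_mem _
  have hlocf := ihg_pt_isLocalHom hres f
  have hbc1 := detIsCyclotomic_baseChangeAlong (f : A →+* DualNumber (ResidueField 𝒪)) hlocf
    (ofMat rA hcts) htype.1.1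
  have hbcX := hXbc (f : A →+* DualNumber (ResidueField 𝒪)) hlocf hs (ofMat rA hcts) htype.1.2.1
  have hequiv := ihgPtMat_equiv hres rA hcts f
  -- admissibility
  have hadm : ihgPtClass b hres rA hcts hstrict p hpk htype.1.1 f ∈
      continuousH1S (primesOf T) (ad0Rep ρbar) := by
    unfold ihgPtClass
    refine tangentClass_mem_continuousH1S (primesOf T) (ihgPtMat_cts hres rA hcts f) _ _ ?_
    intro q hq P hP σ hσ
    have hqT : (q : ℕ) ∉ T := fun h => hq (mem_primesOf.2 h)
    have h1 := isUnramifiedAt_of_isEquiv hequiv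
      (isUnramifiedAt_baseChangeAlong (f : A →+* DualNumber (ResidueField 𝒪)) hlocf (ofMat rA hcts)
        (htype.1.2.2 q q.2 hqT))
    exact (ofMat_ρ_eq_one_iff _ _ σ).1 (h1 P hP σ hσ)
  unfold selmerGroup
  rw [mem_selmerAdm_iff]
  refine ⟨?_, hadm⟩
  rintro (v | ⟨q, hq⟩)
  · show _ ∈ (⊥ : Submodule _ _)
    rw [Submodule.mem_bot]
    exact hArch.2 _
  · show resAt q (ad0Rep ρbar) _ ∈ L q
    by_cases hqTc : q ∈ Tc
    · unfold ihgPtClass
      rw [ihg_resAt_tangentClass_eq_zero q _ _ _ (hloc q hqTc)]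
      exact Submodule.zero_mem _
    by_cases hqp : q = pPrime p
    · subst hqp
      exact hLp _ _ (ihgPtMat_cts hres rA hcts f) _ _ hequiv ⟨hbc1, hbcX⟩
    · have hqp' : (q : ℕ) ≠ p := fun h => hqp (Subtype.ext h)
      by_cases hqS : (q : ℕ) ∈ Smin
      · refine hLmin q hqS hqp' _ _ (ihgPtMat_cts hres rA hcts f) _ _ hequiv ?_
        exact isUnipotentOnInertiaAt_baseChangeAlong _ hlocf (ofMat rA hcts)
          (htype.2 q hqS q.2 hqp')
      · rw [hLtop q hqS hqTc]
        exact resAt_mem_locCont q (primesOf T) _ hadm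

end Main

end

end Fermat.Agent.Ihara
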