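/-
IHARA track / [G1] (helper9): the UNFRAMED count.

`ihg_count_of_contracts` : from the contracts of `Lib/TW/Interface.lean` (with (C-TW) for the set
`Smin ∪ Tc`): there is `r ≥ 3 |Tc|` such that for every `n` there are `r` Taylor–Wiles primes
`≡ 1 mod p^(n+1)` such that for every trace-determined test datum `(A, rA)` of type
`twCond 𝒪 X p Smin (Smin ∪ Tc ∪ Q)`, every finite set of points `f : A → k[ε]` whose `ε`-parts vanish
at the local generators `φ_v, σ_v` (`v ∈ Tc`) has at most `|k| ^ (r - 3 |Tc|)` elements.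
-/
import Fermat.Agent.Lib.Ihara.G1.Selmer
import Fermat.Agent.Lib.Ihara.G1.Count
import Fermat.Agent.Lib.Ihara.G1.Local
import Fermat.Agent.Lib.TW.Local.OrdCondition

set_option autoImplicit false
set_option linter.unusedSectionVars false
set_option linter.style.haveILetI false

open Fermat.Agent.S53Lib Fermat.Agent.TW IsLocalRing groupCohomology ExtCitation CategoryTheory
  GaloisRep

namespace Fermat.Agent.Ihara

noncomputable section

/-- the underlying set of natural numbers of a set of primes -/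
def ihgNat (Tc : Finset Nat.Primes) : Finset ℕ := Tc.image (fun v : Nat.Primes => (v : ℕ))

lemma mem_ihgNat {Tc : Finset Nat.Primes} {v : Nat.Primes} : (v : ℕ) ∈ ihgNat Tc ↔ v ∈ Tc := by
  unfold ihgNat
  constructor
  · intro h
    obtain ⟨w, hw, hwv⟩ := Finset.mem_image.1 h
    have : w = v := Subtype.ext hwv
    rwa [← this]
  · intro h
    exact Finset.mem_image.2 ⟨v, h, rfl⟩

section Final

variable {𝒪 : Type} [CommRing 𝒪] [IsDomain 𝒪] [IsDiscreteValuationRing 𝒪]
  [IsAdicComplete (maximalIdeal 𝒪) 𝒪] [Finite (ResidueField 𝒪)]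

attribute [local instance] dualNumberAlgebra
attribute [local instance] isLocalHom_algebraMap_dualNumber

variable (p : ℕ) [Fact p.Prime] (ρbar : ResidualGaloisRep (ResidueField 𝒪))
  (b : Module.Basis (Fin 2) (ResidueField 𝒪) ρbar.V)
  (X : ∀ ⦃A : Type⦄ [CommRing A] [IsLocalRing A], GaloisRepAdic A → Prop)

/-- **the unframed count from the contracts** -/
theorem ihg_count_of_contracts [Algebra (ZMod p) (ResidueField 𝒪)]
    (hXbc : ∀ ⦃A : Type⦄ [CommRing A] [IsLocalRing A]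
      (φ : A →+* DualNumber (ResidueField 𝒪)) (hφ : IsLocalHom φ), Function.Surjective φ →
      ∀ ρ : GaloisRepAdic A, X ρ → X (ρ.baseChangeAlong φ hφ))
    (hpk : (p : ResidueField 𝒪) = 0)
    (S Smin : Finset ℕ) (hpSmin : p ∈ Smin) (hSmin : Smin ⊆ S)
    (hmin : ∀ q : ℕ, q.Prime → q ≠ p → (q ∈ Smin ↔ ¬ ρbar.IsUnramifiedAt q))
    (Tc : Finset Nat.Primes) (hTcSmin : ∀ v ∈ Tc, (v : ℕ) ∉ Smin)
    (φv σv : Nat.Primes → GQ)
    (hφv : ∀ v ∈ Tc, (primeLocalPlace v).IsFrobeniusAt (φv v) (v : ℕ))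
    (hσv : ∀ v ∈ Tc, IhgGen p (primeLocalPlace v) (σv v))
    (hscal : ∀ v ∈ Tc, ∃ c : ResidueField 𝒪, ρbar.ρ (φv v) = c • 1)
    (tp : LocalPairings (ad0Rep ρbar) (tateDual p (ad0Rep ρbar)))
    (hGW : ContractGW p (ad0Rep ρbar) (tateDual p (ad0Rep ρbar)) tp)
    (hLocP : ContractLocP p ρbar b (fun ρ' => ρ'.DetIsCyclotomic p ∧ X ρ'))
    (hLocMin : ContractLocMin p ρbar b) (hLocTW : ContractLocTW p ρbar)
    (hArch : ContractArch ρbar) (hH0 : ContractH0 ρbar)
    (hTW : ∀ L : LocalConditions (ad0Rep ρbar), ContractTW p ρbar S (Smin ∪ ihgNat Tc) tp L) :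
    ∃ r : ℕ, 3 * Tc.card ≤ r ∧ ∀ n : ℕ, ∃ qv : Fin r → ℕ, Function.Injective qv ∧
      (∀ i, (qv i).Prime ∧ qv i ∉ S ∧ p ^ (n + 1) ∣ qv i - 1) ∧
      (∀ i, IsTWPrime ρbar (qv i)) ∧
      ∀ (A : Type) [CommRing A] [IsLocalRing A] [Algebra 𝒪 A] [IsLocalHom (algebraMap 𝒪 A)]
        (_hres : Function.Surjective (residue A ∘ algebraMap 𝒪 A))
        (rA : GQ →* Matrix (Fin 2) (Fin 2) A) (hcts : MatCts A rA)
        (_hstrict : IsStrictLift (𝒪 := 𝒪) (resMat ρbar b) rA)
        (_htype : twCond 𝒪 X p Smin (Smin ∪ ihgNat Tc ∪ Finset.univ.image qv) (ofMat rA hcts))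
        (_htr : IhgTraceDet (𝒪 := 𝒪) rA)
        (s : Finset (A →ₐ[𝒪] DualNumber (ResidueField 𝒪))),
        (∀ f ∈ s, ∀ v ∈ Tc, mSnd (ihgPtMat rA f (φv v)) = 0 ∧ mSnd (ihgPtMat rA f (σv v)) = 0) →
        s.card * Nat.card (ResidueField 𝒪) ^ (3 * Tc.card) ≤ Nat.card (ResidueField 𝒪) ^ r := by
  classical
  have hp : p.Prime := Fact.out
  -- the local conditions
  obtain ⟨Lp, hLp_le, hLp_dim, hLp_in⟩ := hLocP
  let L1 : LocalConditions (ad0Rep ρbar) := fun q =>
    if h : (q : ℕ) ≠ p ∧ ¬ ρbar.IsUnramifiedAt q then Classical.choose (hLocMin q h.1 h.2)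
    else locCont q (ad0Rep ρbar)
  let L0 : LocalConditions (ad0Rep ρbar) := famAt (pPrime p) Lp L1
  let L : LocalConditions (ad0Rep ρbar) := fun q => if q ∈ Tc then ⊥ else L0 q
  have hLTc : ∀ q ∈ Tc, L q = ⊥ := fun q hq => if_pos hq
  have hLnTc : ∀ q, q ∉ Tc → L q = L0 q := fun q hq => if_neg hq
  have hpTc : pPrime p ∉ Tc := fun h => hTcSmin _ h hpSmin
  have hLpp : L (pPrime p) = Lp := by rw [hLnTc _ hpTc]; exact famAt_self _ _ _
  have hLne : ∀ q : Nat.Primes, q ∉ Tc → (q : ℕ) ≠ p → L q = L1 q := fun q hqT hq => by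
    rw [hLnTc q hqT]
    exact famAt_ne _ _ _ (fun h => hq (by rw [h]; rfl))
  have hL1ram : ∀ q : Nat.Primes, ∀ h : (q : ℕ) ≠ p ∧ ¬ ρbar.IsUnramifiedAt q,
      L1 q = Classical.choose (hLocMin q h.1 h.2) := fun q h => dif_pos h
  have hL1unr : ∀ q : Nat.Primes, ¬ ((q : ℕ) ≠ p ∧ ¬ ρbar.IsUnramifiedAt q) →
      L1 q = locCont q (ad0Rep ρbar) := fun q h => dif_neg h
  have hLtop : ∀ q : Nat.Primes, (q : ℕ) ∉ Smin → q ∉ Tc → L q = locCont q (ad0Rep ρbar) := by
    intro q hq hqT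
    have hqp : (q : ℕ) ≠ p := fun h => hq (h ▸ hpSmin)
    rw [hLne q hqT hqp]
    apply hL1unr
    rintro ⟨-, hram⟩
    exact hq ((hmin q q.2 hqp).2 hram)
  have hLtop' : ∀ q : Nat.Primes, (q : ℕ) ∉ Smin ∪ ihgNat Tc → L q = locCont q (ad0Rep ρbar) := by
    intro q hq
    exact hLtop q (fun h => hq (Finset.mem_union_left _ h))
      (fun h => hq (Finset.mem_union_right _ (mem_ihgNat.2 h)))
  have hLmin : ∀ q : Nat.Primes, (q : ℕ) ∈ Smin → (q : ℕ) ≠ p →
      L q ≤ locCont q (ad0Rep ρbar) ∧ Module.finrank (ResidueField 𝒪) (L q) ≤ h0At ρbar q ∧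
      TangentClassesIn ρbar b (fun ρ' => ρ'.IsUnipotentOnInertiaAt q) q (L q) := by
    intro q hqS hqp
    have hqT : q ∉ Tc := fun h => hTcSmin q h hqS
    have hram : ¬ ρbar.IsUnramifiedAt q := (hmin q q.2 hqp).1 hqS
    rw [hLne q hqT hqp, hL1ram q ⟨hqp, hram⟩]
    exact Classical.choose_spec (hLocMin q hqp hram)
  have hL_le : ∀ q, L q ≤ locCont q (ad0Rep ρbar) := by
    intro q
    by_cases hqT : q ∈ Tc
    · rw [hLTc q hqT]; exact bot_le
    by_cases hqp : (q : ℕ) = p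
    · have : q = pPrime p := Subtype.ext hqp
      subst this
      rw [hLpp]; exact hLp_le
    · by_cases hqS : (q : ℕ) ∈ Smin
      · exact (hLmin q hqS hqp).1
      · rw [hLtop q hqS hqT]
  -- ramification of `ρbar`
  have hunrρ : ∀ q : Nat.Primes, (q : ℕ) ∉ Smin → ρbar.IsUnramifiedAt q := by
    intro q hqS
    have hqp : (q : ℕ) ≠ p := fun h => hqS (h ▸ hpSmin)
    by_contra hram
    exact hqS ((hmin q q.2 hqp).2 hram)
  have hunr : ∀ T : Finset ℕ, Smin ⊆ T →
      IsUnramifiedOutsideRep (primesOf T) (ad0Rep ρbar) := by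
    intro T hT
    apply isUnramifiedOutsideRep_ad0
    intro q hq
    exact hunrρ q (fun h => hq (mem_primesOf.2 (hT h)))
  have hpmem : ∀ T : Finset ℕ, Smin ⊆ T → pPrime p ∈ primesOf T := fun T hT =>
    mem_primesOf.2 (hT hpSmin)
  set Smin' : Finset ℕ := Smin ∪ ihgNat Tc with hSmin'
  have hSS' : Smin ⊆ Smin' := Finset.subset_union_left
  -- `h⁰ = 3` at the primes of `Tc`
  have hscalD : ∀ v ∈ Tc, ∀ g : primeLocalGaloisGroup v,
      ∃ d : ResidueField 𝒪, ρbar.ρ (primeLocalToGlobal v g) = d • 1 := by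
    intro v hv g
    obtain ⟨c, hc⟩ := hscal v hv
    exact ihg_rbar_decomp_scalar ρbar v.2 (primeLocalPlace v) (tw_primeLocalPlace_liesOver v)
      (hunrρ v (hTcSmin v hv) _ (tw_primeLocalPlace_liesOver v)) (hφv v hv) hc
      (tw_primeLocalToGlobal_mem_decomp v g)
  have hh0 : ∀ v ∈ Tc, h0At ρbar v = 3 := fun v hv => ihg_h0At_eq_three ρbar v (hscalD v hv)
  have hsum3 : ∑ v ∈ Tc, h0At ρbar v = 3 * Tc.card := by
    rw [Finset.sum_congr rfl hh0, Finset.sum_const, smul_eq_mul, mul_comm]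
  -- the dual Selmer group of the minimal problem
  have hGW0 := hGW (primesOf Smin') (hpmem Smin' hSS') (hunr Smin' hSS') L hL_le
  have hWfin : FiniteDimensional (ResidueField 𝒪) (dualSelmerGroup (primesOf Smin') tp L) :=
    hGW0.finite_dualSelmer
  have hTW' := hTW L hLtop' hWfin
  -- `3 |Tc| ≤ r`
  have hr3 : 3 * Tc.card ≤
      Module.finrank (ResidueField 𝒪) (dualSelmerGroup (primesOf Smin') tp L) := by
    have hle := hGW0.le
    unfold greenbergWilesLeAdm at hle
    have hTcS' : Tc ⊆ primesOf Smin' := fun v hv =>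
      mem_primesOf.2 (Finset.mem_union_right _ (mem_ihgNat.2 hv))
    have h3 := ihg_sum_bound (primesOf Smin') (pPrime p) ∅ 0 (by simp) Tc hTcS'
      (fun q => Module.finrank (ResidueField 𝒪) (L q)) (fun q => h0At ρbar q) (by
        intro q hq hqTc
        have hqT : (q : ℕ) ∈ Smin' := mem_primesOf.1 hq
        by_cases hqp : q = pPrime p
        · subst hqp
          rw [hLpp]
          simpa using hLp_dim
        · have hqp' : (q : ℕ) ≠ p := fun h => hqp (Subtype.ext h)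
          have hqS : (q : ℕ) ∈ Smin := by
            rcases Finset.mem_union.1 hqT with h | h
            · exact h
            · exact absurd (mem_ihgNat.1 h) hqTc
          simpa [hqp] using (hLmin q hqS hqp').2.1)
      (by
        intro q hq
        rw [hLTc q hq, finrank_bot])
    rw [hH0,
      sum_extArithIndex (primesOf Smin') _ 1 (fun q => h0At ρbar q.1) hArch.1 (fun _ => rfl),
      sum_extArithIndex (primesOf Smin') _ 0
        (fun q => Module.finrank (ResidueField 𝒪) (L q.1)) (finrank_bot _ _) (fun _ => rfl),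
      ] at hle
    rw [hsum3] at h3
    unfold dualSelmerGroup
    omega
  generalize Module.finrank (ResidueField 𝒪) (dualSelmerGroup (primesOf Smin') tp L) = r
    at hTW' hr3
  refine ⟨r, hr3, fun n => ?_⟩
  obtain ⟨qv, hinj, hprops, hTWp, hdual⟩ := hTW' n
  refine ⟨qv, hinj, hprops, hTWp, ?_⟩
  generalize hQ : Finset.univ.image qv = Q at hdual ⊢
  intro A _ _ _ _ hres rA hcts hstrict htype htr s hs
  have hQcard : Q.card ≤ r := by
    rw [← hQ]
    refine Finset.card_image_le.trans ?_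
    rw [Finset.card_univ, Fintype.card_fin]
  have hQmem : ∀ q : Nat.Primes, (q : ℕ) ∈ Q → (q : ℕ) ∉ S ∧ p ∣ (q : ℕ) - 1 ∧
      IsTWPrime ρbar q := by
    intro q hq
    rw [← hQ] at hq
    obtain ⟨i, -, hi⟩ := Finset.mem_image.1 hq
    rw [← hi]
    exact ⟨(hprops i).2.1, (dvd_pow_self p (Nat.succ_ne_zero n)).trans (hprops i).2.2, hTWp i⟩
  -- the dimension of the Selmer group
  obtain ⟨hSelfin, hSeldim⟩ := ihg_finrank_selmerGroup_le p ρbar tp hGW hH0 hArch Smin' Q Tc r
    hQcard (fun v hv => Finset.mem_union_right _ (mem_ihgNat.2 hv))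
    (hpmem _ (hSS'.trans Finset.subset_union_left))
    (hunr _ (hSS'.trans Finset.subset_union_left)) L hL_le hdual
    (by rw [hLpp]; exact hLp_dim)
    (fun q hqS hqp hqT => by
      have hqS' : (q : ℕ) ∈ Smin := by
        rcases Finset.mem_union.1 hqS with h | h
        · exact h
        · exact absurd (mem_ihgNat.1 h) hqT
      exact (hLmin q hqS' hqp).2.1)
    hLTc
    (by
      intro q hq hqT
      obtain ⟨hqS, hpq, hqTW⟩ := hQmem q hq
      have hqSmin : (q : ℕ) ∉ Smin := fun h => hqS (hSmin h)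
      have hqp : (q : ℕ) ≠ p := fun h => hqSmin (h ▸ hpSmin)
      rw [hLtop q hqSmin hqT]
      exact hLocTW q hqp hpq (hunrρ q hqSmin) hqTW)
  rw [hsum3] at hSeldim
  -- the points
  have hlocal : ∀ f ∈ s, ∀ v ∈ Tc, ∀ g : primeLocalGaloisGroup v,
      mSnd (ihgPtMat rA f (primeLocalToGlobal v g)) = 0 := by
    intro f hf v hv g
    have hvp : p ≠ (v : ℕ) := fun h => hTcSmin v hv (h ▸ hpSmin)
    exact ihg_mSnd_eq_zero_of_gen hpk (primeLocalPlace v) hp v.2 hvp
      (tw_primeLocalPlace_liesOver v) (ihgPtMat_cts hres rA hcts f)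
      (ihgPtMat_isDualLift b hres rA hstrict f)
      (hunrρ v (hTcSmin v hv) _ (tw_primeLocalPlace_liesOver v)) (hφv v hv) (hσv v hv)
      (hs f hf v hv).1 (hs f hf v hv).2 (tw_primeLocalToGlobal_mem_decomp v g)
  have hmem : ∀ f ∈ s, ihgPtClass b hres rA hcts hstrict p hpk htype.1.1 f ∈
      selmerGroup (primesOf (Smin' ∪ Q)) L := by
    intro f hf
    refine ihgPtClass_mem_selmerGroup p ρbar b X hres rA hcts hstrict hXbc hpk Smin (Smin' ∪ Q) Tc
      L ?_ ?_ hLtop hArch htype f (hlocal f hf)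
    · rw [hLpp]; exact hLp_in
    · exact fun q hqS hqp => (hLmin q hqS hqp).2.2
  have hinjcl := ihgPtClass_injective b hres rA hcts hstrict p hpk htype.1.1 htr
  -- counting
  haveI := hSelfin
  haveI : Finite (selmerGroup (primesOf (Smin' ∪ Q)) L) :=
    Module.finite_of_finite (ResidueField 𝒪)
  haveI : Fintype (selmerGroup (primesOf (Smin' ∪ Q)) L) := Fintype.ofFinite _
  have hcardSel : Nat.card (selmerGroup (primesOf (Smin' ∪ Q)) L) =
      Nat.card (ResidueField 𝒪) ^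
        Module.finrank (ResidueField 𝒪) (selmerGroup (primesOf (Smin' ∪ Q)) L) :=
    Module.natCard_eq_pow_finrank (K := ResidueField 𝒪)
  have h1 : s.card ≤ Nat.card (selmerGroup (primesOf (Smin' ∪ Q)) L) := by
    let F : {f // f ∈ s} → selmerGroup (primesOf (Smin' ∪ Q)) L :=
      fun f => ⟨ihgPtClass b hres rA hcts hstrict p hpk htype.1.1 f.1, hmem f.1 f.2⟩
    have hF : Function.Injective F := fun f f' h =>
      Subtype.ext (hinjcl (congrArg Subtype.val h))
    have := Fintype.card_le_of_injective F hF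
    rw [Fintype.card_coe] at this
    rw [Nat.card_eq_fintype_card]
    exact this
  calc s.card * Nat.card (ResidueField 𝒪) ^ (3 * Tc.card)
      ≤ Nat.card (ResidueField 𝒪) ^
          Module.finrank (ResidueField 𝒪) (selmerGroup (primesOf (Smin' ∪ Q)) L) *
        Nat.card (ResidueField 𝒪) ^ (3 * Tc.card) := by
        rw [← hcardSel]
        exact Nat.mul_le_mul_right _ h1
    _ = Nat.card (ResidueField 𝒪) ^
          (Module.finrank (ResidueField 𝒪) (selmerGroup (primesOf (Smin' ∪ Q)) L) +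
            3 * Tc.card) := (pow_add _ _ _).symm
    _ ≤ Nat.card (ResidueField 𝒪) ^ r := Nat.pow_le_pow_right Nat.card_pos hSeldim

end Final

end

end Fermat.Agent.Ihara
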