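/-
IHARA track / [G1] (helper9): THE MAIN THEOREM from the contracts.

`ihg_main_of_contracts` : there is `r` such that for every `n` there are `r` Taylor–Wiles primes
`≡ 1 mod p^(n+1)` such that for every trace-determined complete Noetherian test datum `(A, rA)` of
type `twCond 𝒪 X p Smin (Smin ∪ Tc ∪ Q)` and every complete local ring `Λ` with a local algebra
structure on the frame ring `A⟦Z⟧` through which the framed local matrices at the primes of `Tc`
factor, `A⟦Z⟧` is a quotient of `Λ⟦x_1, …, x_{r + |Tc|}⟧`.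
-/
import Fermat.Agent.Lib.Ihara.G1.Unframed
import Fermat.Agent.Lib.Ihara.G1.Rel
import Fermat.Agent.Lib.Ihara.G1.FrameMain

set_option autoImplicit false
set_option linter.unusedSectionVars false
set_option linter.style.haveILetI false

open Fermat.Agent.S53Lib Fermat.Agent.TW IsLocalRing groupCohomology ExtCitation CategoryTheory
  GaloisRep MvPowerSeries

namespace Fermat.Agent.Ihara

noncomputable section

section Aux

variable {𝒪 : Type} [CommRing 𝒪] [IsLocalRing 𝒪]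
  {ρbar : ResidualGaloisRep (ResidueField 𝒪)}
  (b : Module.Basis (Fin 2) (ResidueField 𝒪) ρbar.V)
  {A : Type} [CommRing A] [IsLocalRing A] [Algebra 𝒪 A] [hlocA : IsLocalHom (algebraMap 𝒪 A)]
  (hres : Function.Surjective (residue A ∘ algebraMap 𝒪 A))
  (rA : GQ →* Matrix (Fin 2) (Fin 2) A)
  (hstrict : IsStrictLift (𝒪 := 𝒪) (resMat ρbar b) rA)

attribute [local instance] dualNumberAlgebra
attribute [local instance] isLocalHom_algebraMap_dualNumber

include hstrict in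
/-- a strict lift is congruent to a scalar where `ρbar` is a scalar -/
lemma ihg_entries_of_strict {σ : GQ} {cbar : ResidueField 𝒪} (hσ : ρbar.ρ σ = cbar • 1)
    (ct : 𝒪) (hct : residue 𝒪 ct = cbar) :
    IhgEntriesIn (maximalIdeal A)
      (rA σ - algebraMap 𝒪 A ct • (1 : Matrix (Fin 2) (Fin 2) A)) := by
  intro i j
  rw [← residue_eq_zero_iff, Matrix.sub_apply, Matrix.smul_apply, smul_eq_mul, map_sub,
    sub_eq_zero]
  have h1 := congrFun (congrFun (hstrict σ) i) j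
  simp only [Matrix.map_apply] at h1
  rw [h1, resMat_apply, hσ, map_smul]
  have h2 : LinearMap.toMatrix b b (1 : Module.End (ResidueField 𝒪) ρbar.V) = 1 := by
    rw [Module.End.one_eq_id, LinearMap.toMatrix_id]
  rw [h2, Matrix.smul_apply, smul_eq_mul, ← hct]
  by_cases hij : i = j
  · rw [hij, Matrix.one_apply_eq, Matrix.one_apply_eq, mul_one, mul_one, ResidueField.map_residue]
  · rw [Matrix.one_apply_ne hij, Matrix.one_apply_ne hij, mul_zero, mul_zero, map_zero, map_zero]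

include hres in
/-- a point killing all `M i j - c ∈ m_A` has vanishing `ε`-part at `M` -/
lemma ihg_mSnd_eq_zero_of_kills (f : A →ₐ[𝒪] DualNumber (ResidueField 𝒪))
    (M : Matrix (Fin 2) (Fin 2) A)
    (hf : ∀ (i j : Fin 2) (c : 𝒪), M i j - algebraMap 𝒪 A c ∈ maximalIdeal A →
      f (M i j - algebraMap 𝒪 A c) = 0) :
    mSnd (M.map f) = 0 := by
  ext i j
  show TrivSqZeroExt.snd (f (M i j)) = 0
  obtain ⟨c, hc⟩ := hres (residue A (M i j))
  have hmem : M i j - algebraMap 𝒪 A c ∈ maximalIdeal A := by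
    rw [← residue_eq_zero_iff, map_sub, sub_eq_zero]
    exact hc.symm
  have h1 := hf i j c hmem
  rw [map_sub, sub_eq_zero, AlgHom.commutes] at h1
  rw [h1]
  rfl

end Aux

section Final

variable {𝒪 : Type} [CommRing 𝒪] [IsDomain 𝒪] [IsDiscreteValuationRing 𝒪]
  [IsAdicComplete (maximalIdeal 𝒪) 𝒪] [Finite (ResidueField 𝒪)]

attribute [local instance] dualNumberAlgebra
attribute [local instance] isLocalHom_algebraMap_dualNumber

variable (p : ℕ) [Fact p.Prime] (ρbar : ResidualGaloisRep (ResidueField 𝒪))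
  (b : Module.Basis (Fin 2) (ResidueField 𝒪) ρbar.V)
  (X : ∀ ⦃A : Type⦄ [CommRing A] [IsLocalRing A], GaloisRepAdic A → Prop)

/-- **[G1], main theorem from the contracts** -/
theorem ihg_main_of_contracts [Algebra (ZMod p) (ResidueField 𝒪)]
    (hXbc : ∀ ⦃A : Type⦄ [CommRing A] [IsLocalRing A]
      (φ : A →+* DualNumber (ResidueField 𝒪)) (hφ : IsLocalHom φ), Function.Surjective φ →
      ∀ ρ : GaloisRepAdic A, X ρ → X (ρ.baseChangeAlong φ hφ))
    (hpk : (p : ResidueField 𝒪) = 0)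
    (S Smin : Finset ℕ) (hpSmin : p ∈ Smin) (hSmin : Smin ⊆ S)
    (hmin : ∀ q : ℕ, q.Prime → q ≠ p → (q ∈ Smin ↔ ¬ ρbar.IsUnramifiedAt q))
    (Tc : Finset Nat.Primes) (hTcSmin : ∀ v ∈ Tc, (v : ℕ) ∉ Smin)
    (φv σv : Nat.Primes → GQ)
    (hφv : ∀ v ∈ Tc, (primeLocalPlace v).IsFrobeniusAt (φv v) (v : ℕ))
    (hσv : ∀ v ∈ Tc, IhgGen p (primeLocalPlace v) (σv v))
    (hscal : ∀ v ∈ Tc, ∃ c : ResidueField 𝒪, ρbar.ρ (φv v) = c • 1)
    (tp : LocalPairings (ad0Rep ρbar) (tateDual p (ad0Rep ρbar)))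
    (hGW : ContractGW p (ad0Rep ρbar) (tateDual p (ad0Rep ρbar)) tp)
    (hLocP : ContractLocP p ρbar b (fun ρ' => ρ'.DetIsCyclotomic p ∧ X ρ'))
    (hLocMin : ContractLocMin p ρbar b) (hLocTW : ContractLocTW p ρbar)
    (hArch : ContractArch ρbar) (hH0 : ContractH0 ρbar)
    (hTW : ∀ L : LocalConditions (ad0Rep ρbar), ContractTW p ρbar S (Smin ∪ ihgNat Tc) tp L) :
    ∃ r : ℕ, ∀ n : ℕ, ∃ qv : Fin r → ℕ, Function.Injective qv ∧
      (∀ i, (qv i).Prime ∧ qv i ∉ S ∧ p ^ (n + 1) ∣ qv i - 1) ∧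
      (∀ i, IsTWPrime ρbar (qv i)) ∧
      ∀ (A : Type) [CommRing A] [IsLocalRing A] [IsNoetherianRing A]
        [IsAdicComplete (maximalIdeal A) A] [Algebra 𝒪 A] [IsLocalHom (algebraMap 𝒪 A)]
        (_hres : Function.Surjective (residue A ∘ algebraMap 𝒪 A))
        (rA : GQ →* Matrix (Fin 2) (Fin 2) A) (hcts : MatCts A rA)
        (_hstrict : IsStrictLift (𝒪 := 𝒪) (resMat ρbar b) rA)
        (_htype : twCond 𝒪 X p Smin (Smin ∪ ihgNat Tc ∪ Finset.univ.image qv) (ofMat rA hcts))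
        (_htr : IhgTraceDet (𝒪 := 𝒪) rA)
        (Λ : Type) [CommRing Λ] [IsLocalRing Λ] [IsAdicComplete (maximalIdeal Λ) Λ]
        [Algebra 𝒪 Λ] [Algebra Λ (IhgFrame A ↥Tc)] [IsScalarTower 𝒪 Λ (IhgFrame A ↥Tc)]
        [IsLocalHom (algebraMap Λ (IhgFrame A ↥Tc))]
        (Φ Sg : ↥Tc → Matrix (Fin 2) (Fin 2) Λ)
        (_hΦ : ∀ v : ↥Tc, ihgBeta A ↥Tc v * (Φ v).map (algebraMap Λ (IhgFrame A ↥Tc)) =
          (rA (φv v)).map (C (σ := ↥Tc × Fin 2 × Fin 2) (R := A)) * ihgBeta A ↥Tc v)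
        (_hSg : ∀ v : ↥Tc, ihgBeta A ↥Tc v * (Sg v).map (algebraMap Λ (IhgFrame A ↥Tc)) =
          (rA (σv v)).map (C (σ := ↥Tc × Fin 2 × Fin 2) (R := A)) * ihgBeta A ↥Tc v),
        ∃ γ : MvPowerSeries (Fin (r + Tc.card)) Λ →ₐ[Λ] IhgFrame A ↥Tc,
          Function.Surjective γ := by
  classical
  obtain ⟨r, hr3, hcount⟩ := ihg_count_of_contracts p ρbar b X hXbc hpk S Smin hpSmin hSmin hmin
    Tc hTcSmin φv σv hφv hσv hscal tp hGW hLocP hLocMin hLocTW hArch hH0 hTW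
  refine ⟨r, fun n => ?_⟩
  obtain ⟨qv, hinj, hprops, hTWp, hcnt⟩ := hcount n
  refine ⟨qv, hinj, hprops, hTWp, ?_⟩
  intro A _ _ _ _ _ hlocA hres rA hcts hstrict htype htr Λ _ _ _ _ _ _ _ Φ Sg hΦ hSg
  -- ramification of `ρbar` at `Tc`
  have hunrTc : ∀ v ∈ Tc, ρbar.IsUnramifiedAt v := by
    intro v hv
    have hvp : (v : ℕ) ≠ p := fun h => hTcSmin v hv (h ▸ hpSmin)
    by_contra hram
    exact hTcSmin v hv ((hmin v v.2 hvp).2 hram)
  -- the ideal of local conditions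
  set gens : Set A := {x | x ∈ maximalIdeal A ∧ ∃ v ∈ Tc, ∃ (i j : Fin 2) (c : 𝒪),
    x = rA (φv v) i j - algebraMap 𝒪 A c ∨ x = rA (σv v) i j - algebraMap 𝒪 A c} with hgens
  set JA : Ideal A := Ideal.span gens with hJA
  have hJAle : JA ≤ maximalIdeal A := Ideal.span_le.2 fun x hx => hx.1
  set d : ℕ := r - 3 * Tc.card with hd
  have hrd : r = d + 3 * Tc.card := by omega
  -- the count
  have hcard : ∀ s : Finset (A →ₐ[𝒪] DualNumber (ResidueField 𝒪)),
      (∀ f ∈ s, ∀ x ∈ JA, f x = 0) → s.card ≤ Nat.card (ResidueField 𝒪) ^ d := by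
    intro s hs
    have h1 := hcnt A hres rA hcts hstrict htype htr s (by
      intro f hf v hv
      constructor
      · rw [ihgPtMat_apply]
        refine ihg_mSnd_eq_zero_of_kills hres f _ fun i j c hc => ?_
        exact hs f hf _ (Ideal.subset_span ⟨hc, v, hv, i, j, c, Or.inl rfl⟩)
      · rw [ihgPtMat_apply]
        refine ihg_mSnd_eq_zero_of_kills hres f _ fun i j c hc => ?_
        exact hs f hf _ (Ideal.subset_span ⟨hc, v, hv, i, j, c, Or.inr rfl⟩))
    rw [hrd, pow_add] at h1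
    exact Nat.le_of_mul_le_mul_right h1 (Nat.pow_pos Nat.card_pos)
  have hfg : (maximalIdeal A).FG := IsNoetherian.noetherian _
  obtain ⟨a, ha, hgenA⟩ := ihg_exists_generators_rel hres hfg JA hJAle d hcard
  -- the ideal of the frame ring
  set 𝔍 : Ideal (IhgFrame A ↥Tc) := (maximalIdeal Λ).map (algebraMap Λ (IhgFrame A ↥Tc)) with h𝔍
  have hJ' : JA.map (C (σ := ↥Tc × Fin 2 × Fin 2) (R := A)) ≤ 𝔍 := by
    rw [Ideal.map_le_iff_le_comap, hJA, Ideal.span_le]
    rintro x ⟨hxm, v, hv, i, j, c, hx | hx⟩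
    · obtain ⟨cbar, hcbar⟩ := hscal v hv
      obtain ⟨ct, hct⟩ := residue_surjective cbar
      rw [SetLike.mem_coe, Ideal.mem_comap, hx]
      exact ihg_C_sub_mem (⟨v, hv⟩ : ↥Tc) (rA (φv v)) ct
        (ihg_entries_of_strict b rA hstrict hcbar ct hct) (Φ ⟨v, hv⟩) (hΦ ⟨v, hv⟩) i j c (hx ▸ hxm)
    · have hσ1 : ρbar.ρ (σv v) = (1 : ResidueField 𝒪) • 1 := by
        rw [one_smul]
        exact hunrTc v hv _ (tw_primeLocalPlace_liesOver v) _ (hσv v hv).mem
      rw [SetLike.mem_coe, Ideal.mem_comap, hx]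
      exact ihg_C_sub_mem (⟨v, hv⟩ : ↥Tc) (rA (σv v)) 1
        (ihg_entries_of_strict b rA hstrict hσ1 1 (map_one _)) (Sg ⟨v, hv⟩) (hSg ⟨v, hv⟩) i j c
        (hx ▸ hxm)
  have hI' : ((maximalIdeal 𝒪).map (algebraMap 𝒪 A)).map
      (C (σ := ↥Tc × Fin 2 × Fin 2) (R := A)) ≤ 𝔍 := by
    rw [Ideal.map_map, Ideal.map_le_iff_le_comap]
    intro y hy
    rw [Ideal.mem_comap, RingHom.comp_apply]
    have h3 : C (σ := ↥Tc × Fin 2 × Fin 2) (R := A) (algebraMap 𝒪 A y) =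
        algebraMap Λ (IhgFrame A ↥Tc) (algebraMap 𝒪 Λ y) := by
      rw [← IsScalarTower.algebraMap_apply, MvPowerSeries.algebraMap_apply]
    rw [h3]
    exact Ideal.mem_map_of_mem _ (ihg_algebraMap_mem_maximalIdeal A ↥Tc hy)
  have hgenB := ihg_frame_generators (ι := ↥Tc) a JA ((maximalIdeal 𝒪).map (algebraMap 𝒪 A))
    hgenA 𝔍 hJ' hI'
  -- residue fields
  have hresB : Function.Surjective (residue (IhgFrame A ↥Tc) ∘
      algebraMap Λ (IhgFrame A ↥Tc)) := by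
    intro y
    obtain ⟨a₀, ha₀⟩ := residue_comp_algebraMap_surjective (σ := ↥Tc × Fin 2 × Fin 2) (R := A) y
    obtain ⟨c, hc⟩ := hres (residue A a₀)
    refine ⟨algebraMap 𝒪 Λ c, ?_⟩
    rw [Function.comp_apply] at ha₀ hc ⊢
    rw [← ha₀, ← IsScalarTower.algebraMap_apply, MvPowerSeries.algebraMap_apply,
      ← MvPowerSeries.c_eq_algebraMap, ← sub_eq_zero, ← map_sub, ← map_sub, residue_eq_zero_iff]
    refine ihg_C_mem_maximalIdeal ?_
    rw [← residue_eq_zero_iff, map_sub, hc, sub_self]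
  refine ihg_surj_of_generators hresB a ha hgenB (r + Tc.card) ?_
  rw [Fintype.card_coe]
  omega

end Final

end

end Fermat.Agent.Ihara
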